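import Mathlib
import Fermat.Prelude.Thm_ModularForm_sturm_bound_Gamma0
import Fermat.Prelude.Thm_CongruenceSubgroup_one_mem_strictPeriods_Gamma0

set_option autoImplicit false
open UpperHalfPlane ModularFormClass
open scoped MatrixGroups

namespace Fermat.Agent.Lib.CuspFormSturm

/-- A cusp form on `Gamma0 N` whose Sturm bound is zero vanishes: the Sturm bound
only asks for the constant coefficient, which is zero for a cusp form. -/
theorem cuspForm_eq_zero_of_sturm_zero (N : ℕ) [NeZero N] {k : ℤ}
    (hk : (k * (CongruenceSubgroup.Gamma0 N).index).toNat / 12 = 0)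
    (f : CuspForm (CongruenceSubgroup.Gamma0 N) k) : f = 0 := by
  have h1 := CongruenceSubgroup.one_mem_strictPeriods_Gamma0 N
  have hF : (ModularFormClass.modularForm f :
      ModularForm (CongruenceSubgroup.Gamma0 N) k) = 0 := by
    apply ModularForm.sturm_bound_Gamma0 N
    intro n hn
    rw [hk] at hn
    obtain rfl : n = 0 := by omega
    exact CuspFormClass.qExpansion_coeff_zero f one_pos h1
  ext z
  have := DFunLike.congr_fun hF z
  simpa using this

/-- `Gamma0 1` is everything, so its index is one. -/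
theorem index_Gamma0_one : (CongruenceSubgroup.Gamma0 1).index = 1 := by
  have : CongruenceSubgroup.Gamma0 1 = ⊤ := by
    ext g
    simp [CongruenceSubgroup.Gamma0_mem, eq_iff_true_of_subsingleton]
  rw [this, Subgroup.index_top]

/-- The index of `Gamma0 2` in `SL(2, ℤ)` is at most four (it is in fact three):
a left coset is determined by the first column modulo two. -/
theorem index_Gamma0_two_le : (CongruenceSubgroup.Gamma0 2).index ≤ 4 := by
  classical
  let φ : SL(2, ℤ) ⧸ CongruenceSubgroup.Gamma0 2 → ZMod 2 × ZMod 2 :=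
    fun q => (((q.out 0 0 : ℤ) : ZMod 2), ((q.out 1 0 : ℤ) : ZMod 2))
  have hφ : Function.Injective φ := by
    intro q q' h
    have h0 : ((q.out 0 0 : ℤ) : ZMod 2) = ((q'.out 0 0 : ℤ) : ZMod 2) := congrArg Prod.fst h
    have h1 : ((q.out 1 0 : ℤ) : ZMod 2) = ((q'.out 1 0 : ℤ) : ZMod 2) := congrArg Prod.snd h
    have key : ∀ a b : SL(2, ℤ),
        (↑(a⁻¹ * b) : Matrix (Fin 2) (Fin 2) ℤ) 1 0 = a 0 0 * b 1 0 - a 1 0 * b 0 0 := by
      intro a b
      rw [Matrix.SpecialLinearGroup.coe_mul, Matrix.SpecialLinearGroup.SL2_inv_expl,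
        Matrix.mul_apply, Fin.sum_univ_two]
      simp
      ring
    rw [← QuotientGroup.out_eq' q, ← QuotientGroup.out_eq' q', QuotientGroup.eq,
      CongruenceSubgroup.Gamma0_mem, key]
    push_cast
    rw [h0, h1]
    ring
  calc (CongruenceSubgroup.Gamma0 2).index
      = Nat.card (SL(2, ℤ) ⧸ CongruenceSubgroup.Gamma0 2) := rfl
    _ ≤ Nat.card (ZMod 2 × ZMod 2) := Nat.card_le_card_of_injective φ hφ
    _ = 4 := by simp [Nat.card_eq_fintype_card]

end Fermat.Agent.Lib.CuspFormSturm
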