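import Mathlib

/-!
# Abstract Deligne–Serre lifting lemma

A commuting family of endomorphisms of a finite-dimensional complex vector space preserving a
finitely generated spanning lattice: a mod `p` eigenvector lifts to a genuine eigenvector with
congruent eigenvalues.
-/

set_option autoImplicit false

namespace Fermat.Agent.Lib.DeligneSerre

section Eigen

variable {K : Type*} [Field K] [IsAlgClosed K] {H : Type*} [CommRing H]
  {V : Type*} [AddCommGroup V] [Module K V] [FiniteDimensional K V]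

/-- Core induction: a commutative ring `H` acting on a finite-dimensional space over an
algebraically closed field, `𝔫` a prime ideal containing the annihilator of a stable subspace `W`:
there is a common eigenvector in `W` whose annihilator is contained in `𝔫`. -/
theorem exists_eigenvector_aux (ρ : H →+* Module.End K V) (𝔫 : Ideal H) [𝔫.IsPrime] :
    ∀ (n : ℕ) (W : Submodule K V), Module.finrank K W = n →
      (∀ t, ∀ w ∈ W, ρ t w ∈ W) → (∀ t, (∀ w ∈ W, ρ t w = 0) → t ∈ 𝔫) →
      ∃ v ∈ W, v ≠ 0 ∧ (∀ t, ∃ c : K, ρ t v = c • v) ∧ (∀ t, ρ t v = 0 → t ∈ 𝔫) := by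
  intro n
  induction n using Nat.strong_induction_on with
  | _ n ih =>
  intro W hn hstab hann
  have hW : W ≠ ⊥ := by
    rintro rfl
    have h1 : (1 : H) ∈ 𝔫 := hann 1 (fun w hw => by
      rw [Submodule.mem_bot] at hw; subst hw; simp)
    exact (Ideal.ne_top_iff_one 𝔫).mp (Ideal.IsPrime.ne_top ‹_›) h1
  have hcomm : ∀ s t : H, ∀ w : V, ρ s (ρ t w) = ρ t (ρ s w) := by
    intro s t w
    have h1 : ρ s (ρ t w) = (ρ (s * t)) w := by rw [map_mul]; rfl
    have h2 : ρ t (ρ s w) = (ρ (t * s)) w := by rw [map_mul]; rfl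
    rw [h1, h2, mul_comm]
  by_cases hsc : ∀ t, ∃ c : K, ∀ w ∈ W, ρ t w = c • w
  · obtain ⟨v, hv, hv0⟩ := Submodule.exists_mem_ne_zero_of_ne_bot hW
    refine ⟨v, hv, hv0, fun t => ?_, fun t ht => hann t ?_⟩
    · obtain ⟨c, hc⟩ := hsc t
      exact ⟨c, hc v hv⟩
    · obtain ⟨c, hc⟩ := hsc t
      have hc0 : c = 0 := by
        have := hc v hv
        rw [ht] at this
        rcases smul_eq_zero.mp this.symm with h | h
        · exact h
        · exact absurd h hv0
      intro w hw
      rw [hc w hw, hc0, zero_smul]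
  · push Not at hsc
    obtain ⟨t₀, ht₀⟩ := hsc
    have : Nontrivial W := Submodule.nontrivial_iff_ne_bot.mpr hW
    let f : W →ₗ[K] W := (ρ t₀).restrict (hstab t₀)
    obtain ⟨c, hc⟩ := Module.End.exists_eigenvalue f
    obtain ⟨w₁, hw₁⟩ := hc.exists_hasEigenvector
    have hw₁0 : (w₁ : V) ≠ 0 := fun h => hw₁.2 (Subtype.ext h)
    have hw₁c : ρ t₀ (w₁ : V) = c • (w₁ : V) := by
      have := hw₁.apply_eq_smul
      have h2 := congrArg (Subtype.val) this
      simpa [f] using h2
    let E : Submodule K V := W ⊓ LinearMap.ker (ρ t₀ - c • (1 : Module.End K V))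
    have hEmem : ∀ w, w ∈ E ↔ w ∈ W ∧ ρ t₀ w = c • w := by
      intro w
      simp only [E, Submodule.mem_inf, LinearMap.mem_ker, LinearMap.sub_apply,
        LinearMap.smul_apply, Module.End.one_apply, sub_eq_zero]
    have hEW : E ≤ W := inf_le_left
    have hEne : E ≠ W := by
      intro h
      obtain ⟨w, hw, hne⟩ := ht₀ c
      exact hne (((hEmem w).mp (h ▸ hw)).2)
    have hElt : Module.finrank K E < n := by
      rw [← hn]
      exact Submodule.finrank_lt_finrank_of_lt (lt_of_le_of_ne hEW hEne)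
    have hEstab : ∀ t, ∀ w ∈ E, ρ t w ∈ E := by
      intro t w hw
      rw [hEmem] at hw ⊢
      refine ⟨hstab t w hw.1, ?_⟩
      rw [hcomm, hw.2, map_smul]
    have hw₁E : (w₁ : V) ∈ E := (hEmem _).mpr ⟨w₁.2, hw₁c⟩
    by_cases hE : ∀ t, (∀ w ∈ E, ρ t w = 0) → t ∈ 𝔫
    · obtain ⟨v, hv, h⟩ := ih _ hElt E rfl hEstab hE
      exact ⟨v, hEW hv, h⟩
    · push Not at hE
      obtain ⟨t₁, ht₁E, ht₁𝔫⟩ := hE
      let W' : Submodule K V := W.map (ρ t₁)
      have hW'W : W' ≤ W := by
        rintro _ ⟨w, hw, rfl⟩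
        exact hstab t₁ w hw
      have hW'lt : Module.finrank K W' < n := by
        rw [← hn]
        let g : W →ₗ[K] V := (ρ t₁).domRestrict W
        have hrange : LinearMap.range g = W' := by
          ext x
          simp only [g, W', LinearMap.mem_range, Submodule.mem_map, LinearMap.domRestrict_apply,
            Subtype.exists, exists_prop]
        have hker : LinearMap.ker g ≠ ⊥ := by
          intro h
          have hmem : w₁ ∈ LinearMap.ker g := by
            rw [LinearMap.mem_ker]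
            exact ht₁E _ hw₁E
          rw [h, Submodule.mem_bot] at hmem
          exact hw₁.2 hmem
        have hrk := LinearMap.finrank_range_add_finrank_ker g
        have hkpos : 0 < Module.finrank K (LinearMap.ker g) := by
          rw [Module.finrank_pos_iff]
          exact Submodule.nontrivial_iff_ne_bot.mpr hker
        rw [hrange] at hrk
        omega
      have hW'stab : ∀ t, ∀ w ∈ W', ρ t w ∈ W' := by
        rintro t _ ⟨w, hw, rfl⟩
        exact ⟨ρ t w, hstab t w hw, (hcomm _ _ _)⟩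
      have hW'ann : ∀ t, (∀ w ∈ W', ρ t w = 0) → t ∈ 𝔫 := by
        intro s hs
        have h1 : s * t₁ ∈ 𝔫 := hann _ (fun w hw => by
          rw [map_mul]
          exact hs _ ⟨w, hw, rfl⟩)
        rcases Ideal.IsPrime.mem_or_mem ‹_› h1 with h | h
        · exact h
        · exact absurd h ht₁𝔫
      obtain ⟨v, hv, h⟩ := ih _ hW'lt W' rfl hW'stab hW'ann
      exact ⟨v, hW'W hv, h⟩

end Eigen

section Lift

/-- A commutative ring `H`, integral over `ℤ`, acting on a finite-dimensional complex vector space,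
and a maximal ideal `𝔫` of `H` containing the kernel of the action: there is a common eigenvector
whose eigencharacter `lam : H → ℤ̄` sends `𝔫` into a maximal ideal of `ℤ̄`. -/
theorem exists_lift_of_commRing {H : Type*} [CommRing H] (hint : ∀ t : H, IsIntegral ℤ t)
    {V : Type*} [AddCommGroup V] [Module ℂ V] [FiniteDimensional ℂ V]
    (ρ : H →+* Module.End ℂ V) (𝔫 : Ideal H) [𝔫.IsMaximal] (hker : ∀ t, ρ t = 0 → t ∈ 𝔫) :
    ∃ (v : V) (lam : H →+* integralClosure ℤ ℂ) (𝔪 : Ideal (integralClosure ℤ ℂ)),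
      v ≠ 0 ∧ 𝔪.IsMaximal ∧ (∀ t, ρ t v = ((lam t : integralClosure ℤ ℂ) : ℂ) • v) ∧
        ∀ t ∈ 𝔫, lam t ∈ 𝔪 := by
  have hprime : 𝔫.IsPrime := Ideal.IsMaximal.isPrime ‹_›
  obtain ⟨v, -, hv0, heig, hann⟩ := exists_eigenvector_aux ρ 𝔫 _ ⊤ rfl
    (fun _ _ _ => Submodule.mem_top)
    (fun t ht => hker t (LinearMap.ext fun w => ht w Submodule.mem_top))
  choose c hc using heig
  have hinj : Function.Injective fun a : ℂ => a • v := smul_left_injective ℂ hv0
  have c_one : c 1 = 1 := by
    apply hinj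
    simp only
    rw [← hc 1, map_one, one_smul]
    rfl
  have c_mul : ∀ s t, c (s * t) = c s * c t := by
    intro s t
    apply hinj
    simp only
    rw [← hc (s * t), map_mul, Module.End.mul_apply, hc t, map_smul, hc s, smul_smul, mul_comm]
  have c_zero : c 0 = 0 := by
    apply hinj
    simp only
    rw [← hc 0, map_zero, zero_smul]
    rfl
  have c_add : ∀ s t, c (s + t) = c s + c t := by
    intro s t
    apply hinj
    simp only
    rw [← hc (s + t), map_add, LinearMap.add_apply, hc s, hc t, add_smul]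
  let lamC : H →+* ℂ :=
    { toFun := c, map_one' := c_one, map_mul' := c_mul, map_zero' := c_zero, map_add' := c_add }
  have hlamC : ∀ t, IsIntegral ℤ (lamC t) := fun t => map_isIntegral_int lamC (hint t)
  let lam : H →+* integralClosure ℤ ℂ := lamC.codRestrict (integralClosure ℤ ℂ) hlamC
  have hlam : ∀ t, ((lam t : integralClosure ℤ ℂ) : ℂ) = c t := fun t => rfl
  let _ : Algebra H (integralClosure ℤ ℂ) := lam.toAlgebra
  have hint' : Algebra.IsIntegral H (integralClosure ℤ ℂ) :=
    ⟨fun z => (Algebra.IsIntegral.isIntegral (R := ℤ) z).tower_top⟩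
  have hkerle : RingHom.ker (algebraMap H (integralClosure ℤ ℂ)) ≤ 𝔫 := by
    intro t ht
    rw [RingHom.mem_ker] at ht
    apply hann
    have h0 : c t = 0 := by
      rw [← hlam t]
      have : lam t = 0 := ht
      rw [this]
      rfl
    rw [hc t, h0, zero_smul]
  obtain ⟨𝔪, h𝔪max, h𝔪⟩ := Ideal.exists_ideal_over_maximal_of_isIntegral 𝔫 hkerle
  refine ⟨v, lam, 𝔪, hv0, h𝔪max, fun t => ?_, fun t ht => ?_⟩
  · rw [hlam t, hc t]
  · have : t ∈ 𝔪.comap (algebraMap H (integralClosure ℤ ℂ)) := h𝔪 ▸ ht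
    exact this

end Lift

section Main

open scoped IsMulCommutative

variable {V : Type*} [AddCommGroup V] [Module ℂ V]

/-- The subalgebra of complex endomorphisms preserving a lattice. -/
def latticeStabilizer (L : Submodule ℤ V) : Subalgebra ℤ (Module.End ℂ V) where
  carrier := {t | ∀ v ∈ L, t v ∈ L}
  mul_mem' := fun ha hb v hv => ha _ (hb v hv)
  add_mem' := fun ha hb v hv => L.add_mem (ha v hv) (hb v hv)
  algebraMap_mem' := fun n v hv => by
    rw [Algebra.algebraMap_eq_smul_one, LinearMap.smul_apply, Module.End.one_apply]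
    exact L.smul_mem n hv

theorem mem_latticeStabilizer {L : Submodule ℤ V} {t : Module.End ℂ V} :
    t ∈ latticeStabilizer L ↔ ∀ v ∈ L, t v ∈ L := Iff.rfl

/-- Restriction of a lattice-preserving endomorphism to the lattice. -/
def latticeRes (L : Submodule ℤ V) : latticeStabilizer L →ₐ[ℤ] Module.End ℤ L where
  toFun t := ((t : Module.End ℂ V).restrictScalars ℤ).restrict (p := L) (q := L) t.2
  map_one' := by ext; rfl
  map_mul' := fun s t => by ext; rfl
  map_zero' := by ext; rfl
  map_add' := fun s t => by ext; rfl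
  commutes' := fun n => by
    ext w
    simp

theorem latticeRes_injective (L : Submodule ℤ V) (hLspan : Submodule.span ℂ (L : Set V) = ⊤) :
    Function.Injective (latticeRes L) := by
  intro s t hst
  apply Subtype.ext
  apply LinearMap.ext_on hLspan
  intro w hw
  have := congrArg (fun f : Module.End ℤ L => ((f ⟨w, hw⟩ : L) : V)) hst
  exact this

theorem isIntegral_of_mem_latticeStabilizer (L : Submodule ℤ V) (hLfg : L.FG)
    (hLspan : Submodule.span ℂ (L : Set V) = ⊤) (t : latticeStabilizer L) : IsIntegral ℤ t := by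
  have : Module.Finite ℤ L := Module.Finite.iff_fg.mpr hLfg
  exact (isIntegral_algHom_iff (latticeRes L) (latticeRes_injective L hLspan)).mp
    (Algebra.IsIntegral.isIntegral _)

/-- **Abstract Deligne–Serre lifting lemma.** A commuting family `𝒯` of endomorphisms of a complex
vector space `V` preserving a finitely generated lattice `L` spanning `V`; `f₀ ∈ L`, `f₀ ∉ pL`, is an
eigenvector modulo `pL` with eigenvalues `θ T`. Then there is a genuine common eigenvector `v ≠ 0`
whose eigenvalues `μ T` are algebraic integers congruent to `θ T` modulo a maximal ideal over `p`. -/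
theorem exists_eigenvector_lift
    (L : Submodule ℤ V) (hLfg : L.FG) (hLspan : Submodule.span ℂ (L : Set V) = ⊤)
    (𝒯 : Set (Module.End ℂ V)) (hcomm : ∀ T ∈ 𝒯, ∀ T' ∈ 𝒯, Commute T T')
    (hL : ∀ T ∈ 𝒯, ∀ v ∈ L, T v ∈ L)
    (p : ℕ) (hp : p.Prime) (f₀ : V) (hf₀ : f₀ ∈ L) (hf₀p : ¬ ∃ g ∈ L, f₀ = (p : ℤ) • g)
    (θ : Module.End ℂ V → ℤ) (hθ : ∀ T ∈ 𝒯, ∃ g ∈ L, T f₀ - (θ T) • f₀ = (p : ℤ) • g) :
    ∃ (v : V) (𝔪 : Ideal (integralClosure ℤ ℂ)) (μ : Module.End ℂ V → integralClosure ℤ ℂ),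
      v ≠ 0 ∧ 𝔪.IsMaximal ∧ ((p : ℕ) : integralClosure ℤ ℂ) ∈ 𝔪 ∧
      ∀ T ∈ 𝒯, T v = ((μ T : integralClosure ℤ ℂ) : ℂ) • v ∧
        μ T - ((θ T : ℤ) : integralClosure ℤ ℂ) ∈ 𝔪 := by
  classical
  -- finite-dimensionality
  have hfd : FiniteDimensional ℂ V := by
    obtain ⟨S, hS⟩ := hLfg
    have hspan : Submodule.span ℂ (S : Set V) = ⊤ := by
      rw [← hLspan, ← hS, Submodule.span_span_of_tower]
    exact Module.finite_def.mpr (hspan ▸ Submodule.fg_span S.finite_toSet)
  -- the commutative ring generated by the family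
  let H : Subalgebra ℤ (Module.End ℂ V) := Algebra.adjoin ℤ 𝒯
  have hHcomm : IsMulCommutative H :=
    Algebra.isMulCommutative_adjoin ℤ (fun a ha b hb => hcomm a ha b hb)
  let _ : CommRing H := inferInstance
  have hHle : H ≤ latticeStabilizer L := Algebra.adjoin_le hL
  have hHL : ∀ t : H, ∀ v ∈ L, (t : Module.End ℂ V) v ∈ L := fun t => hHle t.2
  have hint : ∀ t : H, IsIntegral ℤ t := by
    intro t
    have h1 := isIntegral_of_mem_latticeStabilizer L hLfg hLspan (Subalgebra.inclusion hHle t)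
    exact (isIntegral_algHom_iff (Subalgebra.inclusion hHle)
      (Subalgebra.inclusion_injective hHle)).mp h1
  -- every element of `H` acts on `f₀` as an integer modulo `pL`
  have hS : ∀ t : Module.End ℂ V, t ∈ H →
      ∃ n : ℤ, ∃ g ∈ L, t f₀ - n • f₀ = (p : ℤ) • g := by
    intro t ht
    induction ht using Algebra.adjoin_induction with
    | mem T hT => exact ⟨θ T, hθ T hT⟩
    | algebraMap n =>
      refine ⟨n, 0, L.zero_mem, ?_⟩
      rw [Algebra.algebraMap_eq_smul_one, LinearMap.smul_apply, Module.End.one_apply, sub_self,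
        smul_zero]
    | add s t hs ht ihs iht =>
      obtain ⟨n, g, hg, h1⟩ := ihs
      obtain ⟨m, g', hg', h2⟩ := iht
      refine ⟨n + m, g + g', L.add_mem hg hg', ?_⟩
      rw [LinearMap.add_apply, add_smul, smul_add, ← h1, ← h2]
      abel
    | mul s t hs ht ihs iht =>
      obtain ⟨n, g, hg, h1⟩ := ihs
      obtain ⟨m, g', hg', h2⟩ := iht
      refine ⟨n * m, m • g + s g', L.add_mem (L.smul_mem m hg) (hHle hs g' hg'), ?_⟩
      have e2 : t f₀ = m • f₀ + (p : ℤ) • g' := by rw [← h2]; abel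
      have e1 : s f₀ = n • f₀ + (p : ℤ) • g := by rw [← h1]; abel
      rw [Module.End.mul_apply, e2, map_add, map_zsmul, map_zsmul, e1]
      simp only [smul_add, smul_smul, mul_comm]
      abel
  -- the maximal ideal
  let 𝔫 : Ideal H :=
    { carrier := {t | ∃ g ∈ L, (t : Module.End ℂ V) f₀ = (p : ℤ) • g}
      add_mem' := by
        rintro a b ⟨g, hg, h1⟩ ⟨g', hg', h2⟩
        exact ⟨g + g', L.add_mem hg hg', by
          rw [Subalgebra.coe_add, LinearMap.add_apply, h1, h2, smul_add]⟩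
      zero_mem' := ⟨0, L.zero_mem, by simp⟩
      smul_mem' := by
        rintro c x ⟨g, hg, h1⟩
        refine ⟨(c : Module.End ℂ V) g, hHL c g hg, ?_⟩
        rw [smul_eq_mul, Subalgebra.coe_mul, Module.End.mul_apply, h1, map_zsmul] }
  have h𝔫mem : ∀ t : H, t ∈ 𝔫 ↔ ∃ g ∈ L, (t : Module.End ℂ V) f₀ = (p : ℤ) • g := fun t => Iff.rfl
  have hcastH : ∀ n : ℤ, ((n : H) : Module.End ℂ V) f₀ = n • f₀ := by
    intro n
    have : ((n : H) : Module.End ℂ V) = n • (1 : Module.End ℂ V) := by
      rw [← Algebra.algebraMap_eq_smul_one]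
      rfl
    rw [this, LinearMap.smul_apply, Module.End.one_apply]
  have hp𝔫 : ((p : ℤ) : H) ∈ 𝔫 := ⟨f₀, hf₀, hcastH p⟩
  have hS' : ∀ t : H, ∃ n : ℤ, t - (n : H) ∈ 𝔫 := by
    intro t
    obtain ⟨n, g, hg, h⟩ := hS t t.2
    refine ⟨n, g, hg, ?_⟩
    rw [Subalgebra.coe_sub, LinearMap.sub_apply, hcastH, h]
  have h1𝔫 : (1 : H) ∉ 𝔫 := by
    rintro ⟨g, hg, h⟩
    exact hf₀p ⟨g, hg, by simpa using h⟩
  have h𝔫max : 𝔫.IsMaximal := by
    rw [Ideal.isMaximal_iff]
    refine ⟨h1𝔫, fun J x hJ hx hxJ => ?_⟩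
    obtain ⟨n, hn⟩ := hS' x
    have hpn : ¬ (p : ℤ) ∣ n := by
      rintro ⟨k, rfl⟩
      apply hx
      have h2 : (((p : ℤ) * k : ℤ) : H) ∈ 𝔫 := by
        rw [Int.cast_mul]
        exact 𝔫.mul_mem_right _ hp𝔫
      have := 𝔫.add_mem hn h2
      simpa using this
    have hcop : IsCoprime n (p : ℤ) := by
      rw [isCoprime_comm]
      exact (Nat.prime_iff_prime_int.mp hp).coprime_iff_not_dvd.mpr hpn
    obtain ⟨a, b, hab⟩ := hcop
    have h3 : (1 : H) = (a : H) * x - (a : H) * (x - (n : H)) + (b : H) * ((p : ℤ) : H) := by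
      have := congrArg (fun z : ℤ => (z : H)) hab
      simp only [Int.cast_add, Int.cast_mul, Int.cast_one] at this
      rw [← this]
      ring
    rw [h3]
    exact J.add_mem (J.sub_mem (J.mul_mem_left _ hxJ) (J.mul_mem_left _ (hJ hn)))
      (J.mul_mem_left _ (hJ hp𝔫))
  -- apply the lifting lemma
  obtain ⟨v, lam, 𝔪, hv0, h𝔪max, hv, h𝔪⟩ :=
    exists_lift_of_commRing hint (H.val : H →+* Module.End ℂ V) 𝔫
      (fun t ht => by
        have : t = 0 := Subtype.ext ht
        rw [this]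
        exact 𝔫.zero_mem)
  refine ⟨v, 𝔪, fun T => if h : T ∈ H then lam ⟨T, h⟩ else 0, hv0, h𝔪max, ?_, fun T hT => ?_⟩
  · have := h𝔪 _ hp𝔫
    simpa using this
  · have hTH : T ∈ H := Algebra.subset_adjoin hT
    beta_reduce
    rw [dif_pos hTH]
    refine ⟨hv ⟨T, hTH⟩, ?_⟩
    have hmem : (⟨T, hTH⟩ : H) - ((θ T : ℤ) : H) ∈ 𝔫 := by
      obtain ⟨g, hg, h⟩ := hθ T hT
      refine ⟨g, hg, ?_⟩
      rw [Subalgebra.coe_sub, LinearMap.sub_apply, hcastH, h]
    have := h𝔪 _ hmem
    simpa using this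

end Main

end Fermat.Agent.Lib.DeligneSerre
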