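import Mathlib
import Fermat.Prelude.Def_EllipticCurve_FrobeniusTrace
import Fermat.Prelude.Def_FLTPrelim_Ramification

/-!
Existence of Frobenius elements in the absolute Galois group of the rationals:
for every prime `ℓ` there are a valuation subring `A` of the algebraic closure lying over `ℓ`
and an automorphism `σ` with `A.IsFrobeniusAt σ ℓ`.
-/

set_option autoImplicit false

namespace Fermat.Agent.Lib.FrobeniusExists

open Polynomial
open scoped Pointwise

section Horner

variable {K : Type*} [Field K]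

theorem aeval_mem_of_mem (W : ValuationSubring K) (x : K) (hx : x ∈ W) (q : ℤ[X]) :
    aeval x q ∈ W := by
  induction q using Polynomial.induction_on with
  | C a =>
    rw [aeval_C, eq_intCast]
    exact intCast_mem W a
  | add p q hp hq =>
    rw [map_add]
    exact add_mem hp hq
  | monomial n a _ =>
    rw [map_mul, aeval_C, eq_intCast, map_pow, aeval_X]
    exact mul_mem (intCast_mem W a) (pow_mem hx _)

theorem horner_rec (x : K) (p : ℤ[X]) (k : ℕ) :
    aeval x (divX^[k] p) = aeval x (divX^[k + 1] p) * x + (p.coeff k : K) := by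
  have hc : ∀ (k : ℕ) (p : ℤ[X]), (divX^[k] p).coeff 0 = p.coeff k := by
    intro k
    induction k with
    | zero => intro p; rfl
    | succ k ih =>
      intro p
      rw [Function.iterate_succ_apply, ih, coeff_divX]
  have h1 := Polynomial.divX_mul_X_add (divX^[k] p)
  conv_lhs => rw [← h1]
  rw [Function.iterate_succ_apply', map_add, map_mul, aeval_X, aeval_C, eq_intCast, hc]

theorem horner_mem_valuationSubring (W : ValuationSubring K) (x : K) (p : ℤ[X])
    (hp : aeval x p = 0) (k : ℕ) : aeval x (divX^[k] p) ∈ W := by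
  rcases W.mem_or_inv_mem x with hx | hx
  · exact aeval_mem_of_mem W x hx _
  · induction k with
    | zero =>
      rw [Function.iterate_zero, id, hp]
      exact W.zero_mem
    | succ k ih =>
      by_cases hx0 : x = 0
      · subst hx0
        exact aeval_mem_of_mem W 0 W.zero_mem _
      · have h2 := horner_rec x p k
        have h3 : aeval x (divX^[k + 1] p) = (aeval x (divX^[k] p) - (p.coeff k : K)) * x⁻¹ := by
          rw [h2]
          field_simp
          ring
        rw [h3]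
        exact mul_mem (sub_mem ih (intCast_mem W _)) hx

theorem horner_isIntegral (x : K) (p : ℤ[X]) (hp : aeval x p = 0) (k : ℕ) :
    IsIntegral ℤ (aeval x (divX^[k] p)) := by
  by_contra h
  have h' : aeval x (divX^[k] p) ∉ (integralClosure ℤ K).toSubring := h
  obtain ⟨W, -, hW⟩ := Subring.exists_le_valuationSubring_of_isIntegrallyClosedIn h'
  exact hW (horner_mem_valuationSubring W x p hp k)

theorem int_dvd_of_mem_nonunits (V : ValuationSubring K) (ℓ : ℕ) (hℓ : ℓ.Prime)
    (hV : (ℓ : K) ∈ V.nonunits) (a : ℤ) (ha : (a : K) ∈ V.nonunits) : (ℓ : ℤ) ∣ a := by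
  by_contra hdvd
  have hcop : IsCoprime (ℓ : ℤ) a := by
    rw [Int.isCoprime_iff_gcd_eq_one]
    exact (Nat.Prime.coprime_iff_not_dvd hℓ).mpr (fun h => hdvd (Int.natCast_dvd.mpr h))
  obtain ⟨u, w, huw⟩ := hcop
  have h1 : ((u : K) * (ℓ : K) + (w : K) * (a : K)) = 1 := by
    have := congrArg (Int.cast : ℤ → K) huw
    push_cast at this
    exact this
  rw [ValuationSubring.mem_nonunits_iff] at hV ha
  have h2 : V.valuation ((u : K) * (ℓ : K) + (w : K) * (a : K)) < 1 := by
    apply Valuation.map_add_lt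
    · rw [map_mul]
      calc V.valuation (u : K) * V.valuation (ℓ : K) ≤ 1 * V.valuation (ℓ : K) :=
            mul_le_mul' ((V.valuation_le_one_iff _).mpr (intCast_mem V u)) le_rfl
        _ < 1 := by rw [one_mul]; exact hV
    · rw [map_mul]
      calc V.valuation (w : K) * V.valuation (a : K) ≤ 1 * V.valuation (a : K) :=
            mul_le_mul' ((V.valuation_le_one_iff _).mpr (intCast_mem V w)) le_rfl
        _ < 1 := by rw [one_mul]; exact ha
  rw [h1, map_one] at h2
  exact lt_irrefl _ h2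

theorem exists_denominator [CharZero K] (V : ValuationSubring K) (ℓ : ℕ) (hℓ : ℓ.Prime)
    (hV : (ℓ : K) ∈ V.nonunits) (x : K) (hx : x ∈ V) (hxa : IsAlgebraic ℤ x) :
    ∃ s : K, IsIntegral ℤ s ∧ s ∉ V.nonunits ∧ IsIntegral ℤ (s * x) := by
  obtain ⟨p, hp0, hp⟩ := hxa
  have hq : aeval x p.primPart = 0 := by
    have h1 : aeval x p = (p.content : K) * aeval x p.primPart := by
      conv_lhs => rw [p.eq_C_content_mul_primPart]
      rw [map_mul, aeval_C, eq_intCast]
    rw [h1] at hp
    rcases mul_eq_zero.mp hp with h | h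
    · exact absurd (content_eq_zero_iff.mp (Int.cast_eq_zero.mp h)) hp0
    · exact h
  have hprim := p.isPrimitive_primPart
  by_contra hcon
  push Not at hcon
  have hint : ∀ k, IsIntegral ℤ (aeval x (divX^[k] p.primPart)) :=
    fun k => horner_isIntegral x _ hq k
  have hnon : ∀ k, aeval x (divX^[k + 1] p.primPart) ∈ V.nonunits := by
    intro k
    by_contra hk
    apply hcon _ (hint (k + 1)) hk
    have h2 := horner_rec x p.primPart k
    have h3 : aeval x (divX^[k + 1] p.primPart) * x =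
        aeval x (divX^[k] p.primPart) - (p.primPart.coeff k : K) := by
      rw [h2]; ring
    rw [h3]
    exact IsIntegral.sub (hint k) isIntegral_algebraMap
  have hnon' : ∀ k, aeval x (divX^[k] p.primPart) ∈ V.nonunits := by
    intro k
    cases k with
    | zero =>
      rw [Function.iterate_zero, id, hq, ValuationSubring.mem_nonunits_iff, map_zero]
      exact zero_lt_one
    | succ k => exact hnon k
  have hcoeff : ∀ k, (p.primPart.coeff k : K) ∈ V.nonunits := by
    intro k
    have h2 := horner_rec x p.primPart k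
    have h3 : (p.primPart.coeff k : K) =
        aeval x (divX^[k] p.primPart) - aeval x (divX^[k + 1] p.primPart) * x := by
      rw [h2]; ring
    rw [h3, ValuationSubring.mem_nonunits_iff]
    apply Valuation.map_sub_lt
    · exact (ValuationSubring.mem_nonunits_iff V).mp (hnon' k)
    · rw [map_mul]
      calc V.valuation (aeval x (divX^[k + 1] p.primPart)) * V.valuation x
          ≤ V.valuation (aeval x (divX^[k + 1] p.primPart)) * 1 :=
            mul_le_mul' le_rfl ((V.valuation_le_one_iff _).mpr hx)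
        _ < 1 := by rw [mul_one]; exact (ValuationSubring.mem_nonunits_iff V).mp (hnon k)
  have hdvd : C (ℓ : ℤ) ∣ p.primPart := by
    rw [Polynomial.C_dvd_iff_dvd_coeff]
    intro k
    exact int_dvd_of_mem_nonunits V ℓ hℓ hV _ (hcoeff k)
  have hunit := hprim _ hdvd
  rw [Int.isUnit_iff] at hunit
  rcases hunit with h | h
  · have : ℓ = 1 := by exact_mod_cast h
    exact hℓ.one_lt.ne' this
  · have : (0 : ℤ) ≤ (ℓ : ℤ) := Int.natCast_nonneg ℓ
    omega

end Horner

local notation "Qbar" => AlgebraicClosure ℚ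

local instance instIsAlgebraicQbar : Algebra.IsAlgebraic ℚ Qbar :=
  AlgebraicClosure.isAlgebraic ℚ
local instance instIsAlgClosureQbar : IsAlgClosure ℚ Qbar :=
  ⟨inferInstance, inferInstance⟩
local instance instIsGaloisQbar : IsGalois ℚ Qbar :=
  IsAlgClosure.isGalois ℚ Qbar

/-- The ring of all algebraic integers. -/
noncomputable abbrev Zbar : Subalgebra ℤ Qbar := integralClosure ℤ Qbar

noncomputable instance zbarAction : MulSemiringAction (Qbar ≃ₐ[ℚ] Qbar) Zbar where
  smul g b := ⟨g b.1, map_isIntegral_int g b.2⟩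
  one_smul _ := rfl
  mul_smul _ _ _ := rfl
  smul_zero g := Subtype.ext (map_zero g)
  smul_add g _ _ := Subtype.ext (map_add g _ _)
  smul_one g := Subtype.ext (map_one g)
  smul_mul g _ _ := Subtype.ext (map_mul g _ _)

theorem zbar_smul_coe (g : Qbar ≃ₐ[ℚ] Qbar) (b : Zbar) : ((g • b : Zbar) : Qbar) = g (b : Qbar) := rfl

theorem zbar_isInvariant : Algebra.IsInvariant ℤ Zbar (Qbar ≃ₐ[ℚ] Qbar) := by
  constructor
  intro b hb
  have h1 : (b : Qbar) ∈ (⊥ : IntermediateField ℚ Qbar) := by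
    rw [InfiniteGalois.mem_bot_iff_fixed]
    intro f
    exact congrArg Subtype.val (hb f)
  obtain ⟨r, hr⟩ := IntermediateField.mem_bot.mp h1
  have h2 : IsIntegral ℤ r := by
    have h3 : IsIntegral ℤ (algebraMap ℚ Qbar r) := by rw [hr]; exact b.2
    exact (isIntegral_algebraMap_iff (algebraMap ℚ Qbar).injective).mp h3
  obtain ⟨n, hn⟩ := IsIntegrallyClosed.isIntegral_iff.mp h2
  refine ⟨n, Subtype.ext ?_⟩
  rw [← hr, ← hn]
  simp

local instance zbarTopology : TopologicalSpace Zbar := ⊥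
local instance zbarDiscrete : DiscreteTopology Zbar := ⟨rfl⟩

theorem zbar_continuousSMul : ContinuousSMul (Qbar ≃ₐ[ℚ] Qbar) Zbar := by
  rw [continuousSMul_iff_stabilizer_isOpen]
  intro b
  have h := stabilizer_isOpen_of_isIntegral (K := ℚ) (L := Qbar) (b : Qbar)
  convert h using 1
  ext g
  simp only [SetLike.mem_coe, MulAction.mem_stabilizer_iff]
  constructor
  · intro hg
    exact congrArg Subtype.val hg
  · intro hg
    exact Subtype.ext hg

/-- A valuation subring of `Qbar` in which `ℓ` is a non-unit. -/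
theorem exists_valuationSubring_over (ℓ : ℕ) (hℓ : ℓ.Prime) :
    ∃ V : ValuationSubring Qbar, (ℓ : Qbar) ∈ V.nonunits := by
  have hℓ0 : (ℓ : Qbar) ≠ 0 := Nat.cast_ne_zero.mpr hℓ.ne_zero
  have h : ((ℓ : Qbar))⁻¹ ∉ (integralClosure ℤ Qbar).toSubring := by
    intro hmem
    have h1 : IsIntegral ℤ ((ℓ : Qbar))⁻¹ := hmem
    have h2 : ((ℓ : Qbar))⁻¹ = algebraMap ℚ Qbar ((ℓ : ℚ))⁻¹ := by
      rw [map_inv₀, map_natCast]
    rw [h2] at h1
    have h3 : IsIntegral ℤ ((ℓ : ℚ))⁻¹ :=
      (isIntegral_algebraMap_iff (algebraMap ℚ Qbar).injective).mp h1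
    obtain ⟨n, hn⟩ := IsIntegrallyClosed.isIntegral_iff.mp h3
    have hℓq : (ℓ : ℚ) ≠ 0 := Nat.cast_ne_zero.mpr hℓ.ne_zero
    have h4 : (n : ℚ) * (ℓ : ℚ) = 1 := by
      have : (algebraMap ℤ ℚ n) = (n : ℚ) := rfl
      rw [← this, hn, inv_mul_cancel₀ hℓq]
    have h5 : n * (ℓ : ℤ) = 1 := by exact_mod_cast h4
    have h6 : IsUnit (ℓ : ℤ) := IsUnit.of_mul_eq_one n (by rw [mul_comm]; exact h5)
    rw [Int.isUnit_iff] at h6
    rcases h6 with h6 | h6
    · have : ℓ = 1 := by exact_mod_cast h6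
      exact hℓ.one_lt.ne' this
    · have : (0 : ℤ) ≤ (ℓ : ℤ) := Int.natCast_nonneg ℓ
      omega
  obtain ⟨V, -, hV⟩ := Subring.exists_le_valuationSubring_of_isIntegrallyClosedIn h
  refine ⟨V, ?_⟩
  rw [ValuationSubring.mem_nonunits_iff]
  have h1 : ¬ V.valuation ((ℓ : Qbar))⁻¹ ≤ 1 := fun h' => hV ((V.valuation_le_one_iff _).mp h')
  rw [map_inv₀] at h1
  by_contra h2
  apply h1
  push Not at h2
  exact inv_le_one_of_one_le₀ h2

theorem integral_mem (V : ValuationSubring Qbar) (b : Qbar) (hb : IsIntegral ℤ b) : b ∈ V := by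
  have h1 : IsIntegral V b := hb.tower_top
  obtain ⟨y, hy⟩ := IsIntegrallyClosed.isIntegral_iff.mp h1
  rw [← hy]
  exact y.2

/-- The ideal of algebraic integers that are non-units of `V`. -/
noncomputable def primeBelow (V : ValuationSubring Qbar) : Ideal Zbar where
  carrier := {b | V.valuation (b : Qbar) < 1}
  add_mem' := fun {a b} ha hb => by
    show V.valuation ((a + b : Zbar) : Qbar) < 1
    rw [Subalgebra.coe_add]
    exact Valuation.map_add_lt _ ha hb
  zero_mem' := by
    show V.valuation ((0 : Zbar) : Qbar) < 1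
    rw [Subalgebra.coe_zero, map_zero]
    exact zero_lt_one
  smul_mem' := fun c b hb => by
    show V.valuation ((c • b : Zbar) : Qbar) < 1
    rw [smul_eq_mul, Subalgebra.coe_mul, map_mul]
    calc V.valuation (c : Qbar) * V.valuation (b : Qbar) ≤ 1 * V.valuation (b : Qbar) :=
          mul_le_mul' ((V.valuation_le_one_iff _).mpr (integral_mem V _ c.2)) le_rfl
      _ < 1 := by rw [one_mul]; exact hb

theorem mem_primeBelow (V : ValuationSubring Qbar) (b : Zbar) :
    b ∈ primeBelow V ↔ V.valuation (b : Qbar) < 1 := Iff.rfl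

theorem valuation_eq_one_of_not_mem (V : ValuationSubring Qbar) (b : Zbar)
    (hb : b ∉ primeBelow V) : V.valuation (b : Qbar) = 1 := by
  rw [mem_primeBelow] at hb
  exact le_antisymm ((V.valuation_le_one_iff _).mpr (integral_mem V _ b.2)) (not_lt.mp hb)

instance primeBelow_isPrime (V : ValuationSubring Qbar) : (primeBelow V).IsPrime := by
  rw [Ideal.isPrime_iff]
  constructor
  · intro h
    have h1 : (1 : Zbar) ∈ primeBelow V := h ▸ Submodule.mem_top
    rw [mem_primeBelow, Subalgebra.coe_one, map_one] at h1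
    exact lt_irrefl _ h1
  · intro a b hab
    by_contra hcon
    push Not at hcon
    rw [mem_primeBelow, Subalgebra.coe_mul, map_mul, valuation_eq_one_of_not_mem V a hcon.1,
      valuation_eq_one_of_not_mem V b hcon.2, one_mul] at hab
    exact lt_irrefl _ hab

theorem exists_isFrobeniusAt (ℓ : ℕ) (hℓ : ℓ.Prime) :
    ∃ (A : ValuationSubring (AlgebraicClosure ℚ))
      (σ : AlgebraicClosure ℚ ≃ₐ[ℚ] AlgebraicClosure ℚ),
      A.LiesOverPrime ℓ ∧ A.IsFrobeniusAt σ ℓ := by
  obtain ⟨V, hV⟩ := exists_valuationSubring_over ℓ hℓ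
  have : Fact ℓ.Prime := ⟨hℓ⟩
  have hℓQ : ((ℓ : ℕ) : Zbar ⧸ primeBelow V) = 0 := by
    have h1 : ((ℓ : ℕ) : Zbar ⧸ primeBelow V) = Ideal.Quotient.mk (primeBelow V) ((ℓ : ℕ) : Zbar) := by
      simp
    rw [h1, Ideal.Quotient.eq_zero_iff_mem, mem_primeBelow]
    simpa using (V.mem_nonunits_iff).mp hV
  have : CharP (Zbar ⧸ primeBelow V) ℓ := (CharP.charP_iff_prime_eq_zero hℓ).mpr hℓQ
  have hinj : Function.Injective (frobenius (Zbar ⧸ primeBelow V) ℓ) := frobenius_inj _ ℓ
  have hsurj : Function.Surjective (frobenius (Zbar ⧸ primeBelow V) ℓ) := by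
    intro y
    obtain ⟨b, rfl⟩ := Ideal.Quotient.mk_surjective y
    obtain ⟨c, hc⟩ := IsAlgClosed.exists_pow_nat_eq (b : Qbar) hℓ.pos
    have hcint : IsIntegral ℤ c := IsIntegral.of_pow hℓ.pos (hc ▸ b.2)
    refine ⟨Ideal.Quotient.mk (primeBelow V) ⟨c, hcint⟩, ?_⟩
    rw [frobenius_def, ← map_pow]
    congr 1
    exact Subtype.ext hc
  let frobE : (Zbar ⧸ primeBelow V) ≃ₐ[ℤ ⧸ (primeBelow V).under ℤ] (Zbar ⧸ primeBelow V) :=
    { RingEquiv.ofBijective (frobenius (Zbar ⧸ primeBelow V) ℓ) ⟨hinj, hsurj⟩ with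
      commutes' := by
        intro r
        obtain ⟨n, rfl⟩ := Ideal.Quotient.mk_surjective r
        rw [eq_intCast (Ideal.Quotient.mk _) n, map_intCast]
        exact map_intCast (frobenius _ ℓ) n }
  have := zbar_isInvariant
  have := zbar_continuousSMul
  obtain ⟨⟨σ, hσQ⟩, hσ⟩ := Ideal.Quotient.stabilizerHom_surjective_of_profinite
    (G := Qbar ≃ₐ[ℚ] Qbar) ((primeBelow V).under ℤ) (primeBelow V) frobE
  have hfrob : ∀ b : Zbar, V.valuation (σ (b : Qbar) - (b : Qbar) ^ ℓ) < 1 := by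
    intro b
    have h1 := congrArg (fun f => f (Ideal.Quotient.mk (primeBelow V) b)) hσ
    have h2 : Ideal.Quotient.mk (primeBelow V) (σ • b) = Ideal.Quotient.mk (primeBelow V) (b ^ ℓ) := by
      rw [map_pow]
      exact h1
    exact Ideal.Quotient.eq.mp h2
  have hσQ' : σ • primeBelow V = primeBelow V := hσQ
  have hstab : ∀ τ : Qbar ≃ₐ[ℚ] Qbar, τ • primeBelow V = primeBelow V →
      ∀ b : Zbar, b ∉ primeBelow V → τ • b ∉ primeBelow V := by
    intro τ hτ b hb hmem
    have h1 : τ • b ∈ τ • primeBelow V := hτ.symm ▸ hmem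
    exact hb (Ideal.smul_mem_pointwise_smul_iff.mp h1)
  have halg : ∀ x : Qbar, IsAlgebraic ℤ x := fun x =>
    (IsFractionRing.isAlgebraic_iff ℤ ℚ Qbar).mpr (Algebra.IsAlgebraic.isAlgebraic x)
  have hmapV : ∀ τ : Qbar ≃ₐ[ℚ] Qbar, τ • primeBelow V = primeBelow V → ∀ x ∈ V, τ x ∈ V := by
    intro τ hτ x hx
    obtain ⟨s, hs, hsV, hsx⟩ := exists_denominator V ℓ hℓ hV x hx (halg x)
    have hsb : (⟨s, hs⟩ : Zbar) ∉ primeBelow V := fun h => hsV ((V.mem_nonunits_iff).mpr h)
    have h1 : V.valuation (τ s) = 1 := valuation_eq_one_of_not_mem V _ (hstab τ hτ _ hsb)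
    have h2 : V.valuation (τ (s * x)) ≤ 1 :=
      (V.valuation_le_one_iff _).mpr (integral_mem V _ (map_isIntegral_int τ hsx))
    rw [map_mul, map_mul, h1, one_mul] at h2
    exact (V.valuation_le_one_iff _).mp h2
  have hσinv : σ⁻¹ • primeBelow V = primeBelow V := by
    rw [inv_smul_eq_iff]
    exact hσQ'.symm
  have hσD : σ ∈ V.decompositionSubgroup ℚ := by
    rw [MulAction.mem_stabilizer_iff]
    apply SetLike.ext
    intro x
    rw [ValuationSubring.mem_pointwise_smul_iff_inv_smul_mem]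
    constructor
    · intro hx
      have h1 := hmapV σ hσQ' _ hx
      rwa [AlgEquiv.smul_def, ← AlgEquiv.mul_apply, mul_inv_cancel, AlgEquiv.one_apply] at h1
    · intro hx
      exact hmapV σ⁻¹ hσinv x hx
  refine ⟨V, σ, hV, hσD, ?_⟩
  intro y
  obtain ⟨x, rfl⟩ := IsLocalRing.residue_surjective y
  rw [← IsLocalRing.ResidueField.residue_smul, ← map_pow, ← sub_eq_zero, ← map_sub,
    IsLocalRing.residue_eq_zero_iff, ValuationSubring.valuation_lt_one_iff]
  obtain ⟨s, hs, hsV, hsx⟩ := exists_denominator V ℓ hℓ hV x x.2 (halg x)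
  have hsb : (⟨s, hs⟩ : Zbar) ∉ primeBelow V := fun h => hsV ((V.mem_nonunits_iff).mpr h)
  have hs1 : V.valuation s = 1 := valuation_eq_one_of_not_mem V _ hsb
  have hσs1 : V.valuation (σ s) = 1 := valuation_eq_one_of_not_mem V _ (hstab σ hσQ' _ hsb)
  have ht1 : V.valuation (s * x) ≤ 1 := (V.valuation_le_one_iff _).mpr (integral_mem V _ hsx)
  have hFs := hfrob ⟨s, hs⟩
  have hFt := hfrob ⟨s * x, hsx⟩
  have hcoe : (((⟨σ, hσD⟩ : V.decompositionSubgroup ℚ) • x - x ^ ℓ : V) : Qbar)
      = σ (x : Qbar) - (x : Qbar) ^ ℓ := rfl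
  rw [hcoe]
  have hid : (σ (x : Qbar) - (x : Qbar) ^ ℓ) * (σ s * s ^ ℓ) =
      (σ (s * x) - (s * x) ^ ℓ) * s ^ ℓ - (s * x) ^ ℓ * (σ s - s ^ ℓ) := by
    rw [map_mul]
    ring
  have hlhs : V.valuation ((σ (x : Qbar) - (x : Qbar) ^ ℓ) * (σ s * s ^ ℓ)) =
      V.valuation (σ (x : Qbar) - (x : Qbar) ^ ℓ) := by
    rw [map_mul, map_mul, map_pow, hσs1, hs1, one_pow, one_mul, mul_one]
  rw [← hlhs, hid]
  apply Valuation.map_sub_lt
  · rw [map_mul, map_pow, hs1, one_pow, mul_one]
    exact hFt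
  · rw [map_mul, map_pow]
    calc V.valuation (s * x) ^ ℓ * V.valuation (σ s - s ^ ℓ)
        ≤ 1 * V.valuation (σ s - s ^ ℓ) := mul_le_mul' (pow_le_one' ht1 ℓ) le_rfl
      _ < 1 := by rw [one_mul]; exact hFs

end Fermat.Agent.Lib.FrobeniusExists
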