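import Mathlib
import Fermat.Prelude.Def_FLTPrelim_Modularity
import Fermat.Prelude.Def_ModularForm_HeckeOperatorForms
import Fermat.Prelude.Thm_ModularFormClass_qCoeff_heckeT
import Fermat.Prelude.Thm_ModularFormClass_qCoeff_heckeU
import Fermat.Prelude.Thm_CongruenceSubgroup_one_mem_strictPeriods_Gamma0
import Fermat.Prelude.Thm_UpperHalfPlane_eq_of_forall_qCoeff_eq

/-!
# Hecke eigenvectors in `S_2(Gamma0 N)` are normalised eigenforms

Part (i) of S49: a nonzero simultaneous eigenvector of all `heckeTLin` / `heckeULin`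
has nonzero first q-coefficient, and its normalisation satisfies `IsNormalizedEigenform`.
Also: the abstract recursion lemmas on coefficient sequences.
-/

namespace Fermat.Agent.Lib.HeckeEigenform

open ModularFormClass CongruenceSubgroup

section Abstract

variable {R : Type*} [CommRing R]

/-- The formal Hecke relation at all primes: `a (n l) + [l ∣ n] e l a (n / l) = lam l a n`. -/
def HeckeRel (a e lam : ℕ → R) : Prop :=
  ∀ l : ℕ, l.Prime → ∀ n : ℕ,
    a (n * l) + (if l ∣ n then e l * a (n / l) else 0) = lam l * a n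

theorem HeckeRel.smul {a e lam : ℕ → R} (H : HeckeRel a e lam) (c : R) :
    HeckeRel (fun n => c * a n) e lam := by
  intro l hl n
  have h := H l hl n
  by_cases hd : l ∣ n
  · rw [if_pos hd] at h ⊢
    linear_combination c * h
  · rw [if_neg hd] at h ⊢
    linear_combination c * h

theorem HeckeRel.eq_zero {a e lam : ℕ → R} (H : HeckeRel a e lam) (h0 : a 0 = 0)
    (h1 : a 1 = 0) : ∀ n, a n = 0 := by
  intro n
  induction n using Nat.strong_induction_on with
  | _ n ih =>
    rcases Nat.lt_or_ge n 2 with hn | hn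
    · interval_cases n
      · exact h0
      · exact h1
    · have hl : (n.minFac).Prime := Nat.minFac_prime (by omega)
      have hdvd : n.minFac ∣ n := Nat.minFac_dvd n
      have hlt : n / n.minFac < n := Nat.div_lt_self (by omega) hl.one_lt
      have hmul : n / n.minFac * n.minFac = n := Nat.div_mul_cancel hdvd
      have h := H n.minFac hl (n / n.minFac)
      rw [hmul, ih _ hlt] at h
      have hlt2 : n / n.minFac / n.minFac < n :=
        lt_of_le_of_lt (Nat.div_le_self _ _) hlt
      rw [ih _ hlt2] at h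
      simpa using h

theorem HeckeRel.apply_prime {a e lam : ℕ → R} (H : HeckeRel a e lam) (h1 : a 1 = 1)
    {l : ℕ} (hl : l.Prime) : a l = lam l := by
  have h := H l hl 1
  rw [if_neg (by simpa using hl.one_lt.ne' : ¬ l ∣ 1), one_mul, add_zero, h1, mul_one] at h
  exact h

theorem HeckeRel.mul_coprime {a e lam : ℕ → R} (H : HeckeRel a e lam) (h1 : a 1 = 1) :
    ∀ m n : ℕ, m.Coprime n → a (m * n) = a m * a n := by
  intro m
  induction m using Nat.strong_induction_on with
  | _ m ih =>
    intro n hmn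
    rcases Nat.lt_or_ge m 2 with hm | hm
    · interval_cases m
      · have hn : n = 1 := by simpa using hmn
        subst hn
        simp [h1]
      · simp [h1]
    · set l := m.minFac with hl_def
      have hl : l.Prime := Nat.minFac_prime (by omega)
      have hdvd : l ∣ m := Nat.minFac_dvd m
      set m' := m / l with hm'_def
      have hlt : m' < m := Nat.div_lt_self (by omega) hl.one_lt
      have hmul : m' * l = m := Nat.div_mul_cancel hdvd
      have hm'n : m'.Coprime n := Nat.Coprime.coprime_dvd_left ⟨l, hmul.symm⟩ hmn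
      have hln : ¬ l ∣ n := by
        intro hln
        have : l ∣ Nat.gcd m n := Nat.dvd_gcd hdvd hln
        rw [hmn] at this
        exact hl.one_lt.ne' (Nat.dvd_one.mp this)
      have h1' := H l hl (m' * n)
      have h2' := H l hl m'
      have e1 : m' * n * l = m * n := by rw [← hmul]; ring
      rw [e1, ih m' hlt n hm'n] at h1'
      rw [hmul] at h2'
      by_cases hd : l ∣ m'
      · have hd' : l ∣ m' * n := Dvd.dvd.mul_right hd n
        rw [if_pos hd'] at h1'
        rw [if_pos hd] at h2'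
        have hlt2 : m' / l < m := lt_of_le_of_lt (Nat.div_le_self _ _) hlt
        have hdiv : m' * n / l = m' / l * n := Nat.mul_div_right_comm hd n
        have hcop : (m' / l).Coprime n :=
          Nat.Coprime.coprime_dvd_left (Nat.div_dvd_of_dvd hd) hm'n
        rw [hdiv, ih (m' / l) hlt2 n hcop] at h1'
        linear_combination h1' - a n * h2'
      · have hd' : ¬ l ∣ m' * n := by
          intro h
          rcases (Nat.Prime.dvd_mul hl).mp h with h | h
          · exact hd h
          · exact hln h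
        rw [if_neg hd', add_zero] at h1'
        rw [if_neg hd, add_zero] at h2'
        rw [h1', h2']
        ring

theorem HeckeRel.prime_pow {a e lam : ℕ → R} (H : HeckeRel a e lam) (h1 : a 1 = 1)
    {p : ℕ} (hp : p.Prime) (r : ℕ) :
    a (p ^ (r + 2)) = a p * a (p ^ (r + 1)) - e p * a (p ^ r) := by
  have h := H p hp (p ^ (r + 1))
  have hd : p ∣ p ^ (r + 1) := dvd_pow_self p (by omega)
  have hdiv : p ^ (r + 1) / p = p ^ r := by
    rw [pow_succ, Nat.mul_div_cancel _ hp.pos]
  rw [if_pos hd, hdiv, ← pow_succ, ← H.apply_prime h1 hp] at h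
  linear_combination h

end Abstract

variable {N : ℕ}

theorem qCoeff_heckeTLin {l : ℕ} (hl : l.Prime) (hlN : ¬ l ∣ N) (g : CuspForm (Gamma0 N) 2)
    (n : ℕ) :
    qCoeff (⇑(CuspForm.heckeTLin 2 hl hlN g)) n =
      qCoeff (⇑g) (n * l) + if l ∣ n then (l : ℂ) * qCoeff (⇑g) (n / l) else 0 := by
  have h := ModularFormClass.qCoeff_heckeT g (CongruenceSubgroup.one_mem_strictPeriods_Gamma0 N)
    hl.ne_zero n
  rw [CuspForm.coe_heckeTLin_apply, h, ModularForm.coeffHeckeT_apply]
  norm_num

theorem qCoeff_heckeULin [NeZero N] {q : ℕ} (hqN : q ∣ N) (hq : q ≠ 0)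
    (g : CuspForm (Gamma0 N) 2) (n : ℕ) :
    qCoeff (⇑(CuspForm.heckeULin 2 hqN g)) n = qCoeff (⇑g) (n * q) := by
  have h := ModularFormClass.qCoeff_heckeU g (CongruenceSubgroup.one_mem_strictPeriods_Gamma0 N)
    hq n
  rw [CuspForm.coe_heckeULin_apply, h, ModularForm.coeffHeckeU_apply]

theorem qCoeff_smul (c : ℂ) (g : CuspForm (Gamma0 N) 2) (n : ℕ) :
    qCoeff (⇑(c • g)) n = c * qCoeff (⇑g) n := by
  have hc : (⇑(c • g) : UpperHalfPlane → ℂ) = c • ⇑g := rfl
  have h := ModularForm.qExpansion_smul (h := 1) one_pos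
    (CongruenceSubgroup.one_mem_strictPeriods_Gamma0 N) c g
  unfold qCoeff
  rw [hc, h]
  simp

theorem qCoeff_zero_eq_zero (g : CuspForm (Gamma0 N) 2) : qCoeff (⇑g) 0 = 0 := by
  unfold qCoeff
  exact CuspFormClass.qExpansion_coeff_zero g one_pos
    (CongruenceSubgroup.one_mem_strictPeriods_Gamma0 N)

theorem eq_zero_of_forall_qCoeff_eq_zero (g : CuspForm (Gamma0 N) 2)
    (h : ∀ n, qCoeff (⇑g) n = 0) : g = 0 := by
  have hΓ := CongruenceSubgroup.one_mem_strictPeriods_Gamma0 N
  have hcusp : Fact (IsCusp OnePoint.infty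
      (Subgroup.map (Matrix.SpecialLinearGroup.mapGL ℝ) (Gamma0 N))) :=
    ⟨Subgroup.isCusp_of_mem_strictPeriods one_pos hΓ⟩
  have hper := SlashInvariantFormClass.periodic_comp_ofComplex g hΓ
  have hq : UpperHalfPlane.qExpansion 1 (⇑g) = 0 := by
    ext n
    simpa [qCoeff] using h n
  have hz := (UpperHalfPlane.qExpansion_eq_zero_iff (h := 1) one_pos
    (by simpa using hper) (ModularFormClass.holo g) (ModularFormClass.bdd_at_infty g)).mp hq
  exact DFunLike.coe_injective hz

/-- The Hecke relation for the q-coefficients of a simultaneous eigenvector. -/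
theorem heckeRel_of_eigen [NeZero N] (g : CuspForm (Gamma0 N) 2) (lam : ℕ → ℂ)
    (hT : ∀ (l : ℕ) (hl : l.Prime) (hlN : ¬ l ∣ N), CuspForm.heckeTLin 2 hl hlN g = lam l • g)
    (hU : ∀ (q : ℕ) (_ : q.Prime) (hqN : q ∣ N), CuspForm.heckeULin 2 hqN g = lam q • g) :
    HeckeRel (fun n => qCoeff (⇑g) n) (fun l => if l ∣ N then 0 else (l : ℂ)) lam := by
  intro l hl n
  by_cases hlN : l ∣ N
  · have h := qCoeff_heckeULin hlN hl.ne_zero g n
    rw [hU l hl hlN, qCoeff_smul] at h
    simp only [if_pos hlN, zero_mul, ite_self, add_zero]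
    exact h.symm
  · have h := qCoeff_heckeTLin hl hlN g n
    rw [hT l hl hlN, qCoeff_smul] at h
    simp only [if_neg hlN]
    exact h.symm

/-- **Part (i) of S49.** A nonzero simultaneous eigenvector of all the Hecke operators
`heckeTLin` (primes not dividing `N`) and `heckeULin` (primes dividing `N`) on
`S_2(Gamma0 N)` has nonzero first coefficient, its normalisation is a normalised eigenform,
and the coefficient at a prime is the eigenvalue. -/
theorem isNormalizedEigenform_of_eigen [NeZero N] (g : CuspForm (Gamma0 N) 2) (hg : g ≠ 0)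
    (lam : ℕ → ℂ)
    (hT : ∀ (l : ℕ) (hl : l.Prime) (hlN : ¬ l ∣ N), CuspForm.heckeTLin 2 hl hlN g = lam l • g)
    (hU : ∀ (q : ℕ) (_ : q.Prime) (hqN : q ∣ N), CuspForm.heckeULin 2 hqN g = lam q • g) :
    qCoeff (⇑g) 1 ≠ 0 ∧ ((qCoeff (⇑g) 1)⁻¹ • g).IsNormalizedEigenform ∧
      ∀ l : ℕ, l.Prime → qCoeff (⇑((qCoeff (⇑g) 1)⁻¹ • g)) l = lam l := by
  have H := heckeRel_of_eigen g lam hT hU
  have h1 : qCoeff (⇑g) 1 ≠ 0 := by
    intro h1
    exact hg (eq_zero_of_forall_qCoeff_eq_zero g (H.eq_zero (qCoeff_zero_eq_zero g) h1))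
  set c : ℂ := (qCoeff (⇑g) 1)⁻¹ with hc
  have H' := H.smul c
  have hcoe : ∀ n, qCoeff (⇑(c • g)) n = c * qCoeff (⇑g) n := fun n => qCoeff_smul c g n
  have h1' : (fun n => c * qCoeff (⇑g) n) 1 = 1 := by
    simp only [hc]
    exact inv_mul_cancel₀ h1
  refine ⟨h1, ⟨?_, ?_, ?_, ?_⟩, ?_⟩
  · rw [hcoe]; exact h1'
  · intro m n hmn
    rw [hcoe, hcoe, hcoe]
    exact H'.mul_coprime h1' m n hmn
  · intro p r hp hpN
    rw [hcoe, hcoe, hcoe, hcoe]
    have := H'.prime_pow h1' hp r
    simp only [if_neg hpN] at this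
    exact this
  · intro p r hp hpN
    rw [hcoe, hcoe, hcoe]
    have := H'.prime_pow h1' hp r
    simp only [if_pos hpN, zero_mul, sub_zero] at this
    exact this
  · intro l hl
    rw [hcoe]
    exact H'.apply_prime h1' hl

end Fermat.Agent.Lib.HeckeEigenform
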