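import Mathlib
import Fermat.Prelude.Def_CuspForm_HeckeAlgebra
import Fermat.Prelude.Def_CuspForm_IntegralStructure
import Fermat.Prelude.Thm_CuspForm_intLattice_fg
import Fermat.Prelude.Thm_CuspForm_mem_intLattice_of_mem_heckeAlgebra
import Fermat.Agent.Lib.DeligneSerre
import Fermat.Agent.Lib.CuspFormSturm

/-!
# The Hecke algebra is a finite `ℤ`-module, given the integral structure

If the cusp forms with integral `q`-expansion span `S_k(Γ₀(N))` (for `k ≥ 1`), then the Hecke
algebra embeds in the endomorphism ring of the (finitely generated) integral lattice, hence is a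
finitely generated `ℤ`-module. For `k ≤ 0` there are no nonzero cusp forms.
-/

set_option autoImplicit false

namespace Fermat.Agent.Lib.HeckeFinite

open Fermat.Agent.Lib.DeligneSerre

/-- Abstract version: a subalgebra of complex endomorphisms preserving a finitely generated
spanning lattice is a finite `ℤ`-module. -/
theorem moduleFinite_of_le_latticeStabilizer {V : Type*} [AddCommGroup V] [Module ℂ V]
    (L : Submodule ℤ V) (hLfg : L.FG) (hLspan : Submodule.span ℂ (L : Set V) = ⊤)
    (H : Subalgebra ℤ (Module.End ℂ V)) (hH : H ≤ latticeStabilizer L) :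
    Module.Finite ℤ H := by
  have hfin : Module.Finite ℤ L := Module.Finite.iff_fg.mpr hLfg
  have htf : IsAddTorsionFree V := by
    let _ : Module ℚ V := Module.compHom V (algebraMap ℚ ℂ)
    exact IsAddTorsionFree.of_module_rat V
  have hfree : Module.Free ℤ L := Module.free_of_finite_type_torsion_free'
  let φ : H →ₗ[ℤ] Module.End ℤ L :=
    (latticeRes L).toLinearMap.comp (Subalgebra.inclusion hH).toLinearMap
  have hφ : Function.Injective φ :=
    (latticeRes_injective L hLspan).comp (Subalgebra.inclusion_injective hH)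
  exact Module.Finite.of_injective φ hφ

theorem moduleFinite_heckeAlgebra_of_pos (N : ℕ) [NeZero N] (k : ℤ) (S : Set ℕ) (hk : 1 ≤ k)
    (h : CuspForm.HasIntegralStructure N k) :
    Module.Finite ℤ (CuspForm.heckeAlgebra N k S) :=
  moduleFinite_of_le_latticeStabilizer (CuspForm.intLattice N k) (CuspForm.intLattice_fg N k) h
    (CuspForm.heckeAlgebra N k S)
    (fun _ ht _ hf => CuspForm.mem_intLattice_of_mem_heckeAlgebra hk ht hf)

theorem moduleFinite_heckeAlgebra_of_nonpos (N : ℕ) [NeZero N] (k : ℤ) (S : Set ℕ) (hk : k ≤ 0) :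
    Module.Finite ℤ (CuspForm.heckeAlgebra N k S) := by
  have hzero : ∀ f : CuspForm (CongruenceSubgroup.Gamma0 N) k, f = 0 := by
    intro f
    apply Fermat.Agent.Lib.CuspFormSturm.cuspForm_eq_zero_of_sturm_zero N
    have : (k * ((CongruenceSubgroup.Gamma0 N).index : ℤ)).toNat = 0 := by
      rw [Int.toNat_eq_zero]
      exact mul_nonpos_of_nonpos_of_nonneg hk (Int.natCast_nonneg _)
    rw [this]
  have hsub : Subsingleton (CuspForm.heckeAlgebra N k S) := by
    refine ⟨fun a b => Subtype.ext (LinearMap.ext fun f => ?_)⟩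
    rw [hzero f, map_zero, map_zero]
  exact Module.Finite.of_finite

/-- **S22 glue.** The Hecke algebra of weight `k` and level `Γ₀(N)` is a finite `ℤ`-module, given
the integral structure in all weights `k ≥ 1`. -/
theorem moduleFinite_heckeAlgebra_of_hasIntegralStructure (N : ℕ) [NeZero N] (k : ℤ) (S : Set ℕ)
    (h : 1 ≤ k → CuspForm.HasIntegralStructure N k) :
    Module.Finite ℤ (CuspForm.heckeAlgebra N k S) := by
  rcases le_or_gt 1 k with hk | hk
  · exact moduleFinite_heckeAlgebra_of_pos N k S hk (h hk)
  · exact moduleFinite_heckeAlgebra_of_nonpos N k S (by omega)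

end Fermat.Agent.Lib.HeckeFinite
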