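import Mathlib

/-!
# Formal Hecke eigen-relations on coefficient sequences

A sequence `c : ℕ → R` satisfying the Hecke eigen-relations
`c (n * ℓ) + [ℓ ∣ n] e ℓ * c (n / ℓ) = lam ℓ * c n` at all primes `ℓ` is determined by `c 1`;
when `c 1 = 1` it is multiplicative and satisfies the usual prime power recursions.
-/

set_option autoImplicit false

namespace Fermat.Agent.Lib.HeckeRecursion

variable {R : Type*} [CommRing R]

/-- The Hecke eigen-relation on a coefficient sequence. -/
def IsHeckeEigenSeq (e lam c : ℕ → R) : Prop :=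
  ∀ ℓ : ℕ, ℓ.Prime → ∀ n : ℕ,
    c (n * ℓ) + (if ℓ ∣ n then e ℓ * c (n / ℓ) else 0) = lam ℓ * c n

variable {e lam c : ℕ → R}

theorem IsHeckeEigenSeq.const_mul (h : IsHeckeEigenSeq e lam c) (a : R) :
    IsHeckeEigenSeq e lam (fun n => a * c n) := by
  intro ℓ hℓ n
  have := h ℓ hℓ n
  split_ifs at this ⊢ with hd
  · linear_combination a * this
  · linear_combination a * this

/-- If the first coefficient vanishes, all coefficients of positive index vanish. -/
theorem IsHeckeEigenSeq.eq_zero_of_one (h : IsHeckeEigenSeq e lam c) (h1 : c 1 = 0) :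
    ∀ n, 1 ≤ n → c n = 0 := by
  intro n
  induction n using Nat.strong_induction_on with
  | _ n ih =>
  intro hn
  rcases eq_or_lt_of_le hn with rfl | hn1
  · exact h1
  · have hne : n ≠ 1 := by omega
    obtain ⟨p, hp, m, hm⟩ : ∃ p : ℕ, p.Prime ∧ ∃ m : ℕ, n = m * p := by
      obtain ⟨p, hp, m, hm⟩ := Nat.exists_prime_and_dvd hne
      exact ⟨p, hp, m, by rw [hm, mul_comm]⟩
    subst hm
    have hmpos : 1 ≤ m := by
      rcases Nat.eq_zero_or_pos m with rfl | hpos
      · omega
      · exact hpos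
    have hmlt : m < m * p := by
      have := hp.two_le
      nlinarith
    have hrel := h p hp m
    rw [ih m hmlt hmpos, mul_zero] at hrel
    split_ifs at hrel with hd
    · have hdpos : 1 ≤ m / p := Nat.div_pos (Nat.le_of_dvd hmpos hd) hp.pos
      have hdlt : m / p < m * p := lt_of_le_of_lt (Nat.div_le_self _ _) hmlt
      rw [ih _ hdlt hdpos, mul_zero, add_zero] at hrel
      exact hrel
    · rw [add_zero] at hrel
      exact hrel

theorem IsHeckeEigenSeq.apply_prime (h : IsHeckeEigenSeq e lam c) (h1 : c 1 = 1) {ℓ : ℕ}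
    (hℓ : ℓ.Prime) : c ℓ = lam ℓ := by
  have := h ℓ hℓ 1
  rw [if_neg (by rw [Nat.dvd_one]; exact hℓ.ne_one), add_zero, one_mul, h1, mul_one] at this
  exact this

theorem IsHeckeEigenSeq.prime_pow (h : IsHeckeEigenSeq e lam c) (h1 : c 1 = 1) {p : ℕ}
    (hp : p.Prime) (r : ℕ) :
    c (p ^ (r + 2)) = c p * c (p ^ (r + 1)) - e p * c (p ^ r) := by
  have := h p hp (p ^ (r + 1))
  have hdiv : p ^ (r + 1) / p = p ^ r := by
    rw [pow_succ, Nat.mul_div_cancel _ hp.pos]
  rw [if_pos (dvd_pow_self p (Nat.succ_ne_zero r)), ← pow_succ, hdiv,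
    ← h.apply_prime h1 hp] at this
  linear_combination this

/-- Multiplicativity against a prime power coprime to the other factor. -/
theorem IsHeckeEigenSeq.prime_pow_mul (h : IsHeckeEigenSeq e lam c) (h1 : c 1 = 1) {p : ℕ}
    (hp : p.Prime) {n : ℕ} (hn : ¬ p ∣ n) : ∀ k : ℕ, c (p ^ k * n) = c (p ^ k) * c n := by
  have key : ∀ k : ℕ, c (p ^ k * n) = c (p ^ k) * c n ∧
      c (p ^ (k + 1) * n) = c (p ^ (k + 1)) * c n := by
    intro k
    induction k with
    | zero =>
      refine ⟨by simp [h1], ?_⟩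
      have := h p hp n
      rw [if_neg hn, add_zero, ← h.apply_prime h1 hp] at this
      rw [zero_add, pow_one, mul_comm p n]
      exact this
    | succ k ih =>
      refine ⟨ih.2, ?_⟩
      have hrel := h p hp (p ^ (k + 1) * n)
      have hdvd : p ∣ p ^ (k + 1) * n := Dvd.dvd.mul_right (dvd_pow_self p (Nat.succ_ne_zero k)) n
      have hdiv : p ^ (k + 1) * n / p = p ^ k * n := by
        rw [pow_succ, mul_assoc, mul_comm p n, ← mul_assoc, Nat.mul_div_cancel _ hp.pos]
      have hmul : p ^ (k + 1) * n * p = p ^ (k + 1 + 1) * n := by ring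
      rw [if_pos hdvd, hdiv, hmul, ih.1, ih.2, ← h.apply_prime h1 hp] at hrel
      have hpp := h.prime_pow h1 hp k
      rw [show k + 1 + 1 = k + 2 by ring]
      linear_combination hrel - c n * hpp
  exact fun k => (key k).1

/-- A normalized Hecke eigen-sequence is multiplicative on coprime arguments. -/
theorem IsHeckeEigenSeq.mul_of_coprime (h : IsHeckeEigenSeq e lam c) (h1 : c 1 = 1) :
    ∀ m n : ℕ, m.Coprime n → c (m * n) = c m * c n := by
  intro m
  induction m using Nat.strong_induction_on with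
  | _ m ih =>
  intro n hmn
  rcases Nat.eq_zero_or_pos m with rfl | hmpos
  · have hn1 : n = 1 := by simpa using hmn
    subst hn1
    simp [h1]
  rcases eq_or_lt_of_le (Nat.succ_le_of_lt hmpos) with hm1 | hm1
  · have : m = 1 := by omega
    subst this
    simp [h1]
  · have hne : m ≠ 1 := by omega
    obtain ⟨p, hp, hpm⟩ := Nat.exists_prime_and_dvd hne
    obtain ⟨k, m', hm'ndvd, hm'eq⟩ :=
      Nat.exists_eq_pow_mul_and_not_dvd hmpos.ne' p hp.ne_one
    have hkpos : k ≠ 0 := by
      rintro rfl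
      rw [pow_zero, one_mul] at hm'eq
      exact hm'ndvd (hm'eq ▸ hpm)
    subst hm'eq
    have hm'pos : 0 < m' := by
      rcases Nat.eq_zero_or_pos m' with rfl | hpos
      · rw [mul_zero] at hmpos; omega
      · exact hpos
    have hm'lt : m' < p ^ k * m' := by
      have h2 : 2 ≤ p ^ k := by
        calc 2 ≤ p := hp.two_le
          _ = p ^ 1 := (pow_one _).symm
          _ ≤ p ^ k := Nat.pow_le_pow_right hp.pos (Nat.one_le_iff_ne_zero.mpr hkpos)
      nlinarith
    have hm'dvd : m' ∣ p ^ k * m' := Dvd.intro_left _ rfl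
    have hcop' : m'.Coprime n := Nat.Coprime.coprime_dvd_left hm'dvd hmn
    have hpn : ¬ p ∣ n := by
      intro hd
      have := Nat.dvd_gcd hpm hd
      rw [hmn.gcd_eq_one, Nat.dvd_one] at this
      exact hp.ne_one this
    have hpm'n : ¬ p ∣ m' * n := by
      intro hd
      rcases (Nat.Prime.dvd_mul hp).mp hd with h' | h'
      · exact hm'ndvd h'
      · exact hpn h'
    rw [mul_assoc, h.prime_pow_mul h1 hp hpm'n k, ih m' hm'lt n hcop',
      h.prime_pow_mul h1 hp hm'ndvd k]
    ring

/-- Assemble the eigen-relation from `T`-type relations at primes not dividing `N` and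
`U`-type relations at primes dividing `N`. -/
theorem IsHeckeEigenSeq.of_level (N : ℕ) (eT : ℕ → R)
    (hT : ∀ ℓ : ℕ, ℓ.Prime → ¬ ℓ ∣ N → ∀ n : ℕ,
      c (n * ℓ) + (if ℓ ∣ n then eT ℓ * c (n / ℓ) else 0) = lam ℓ * c n)
    (hU : ∀ q : ℕ, q.Prime → q ∣ N → ∀ n : ℕ, c (n * q) = lam q * c n) :
    IsHeckeEigenSeq (fun ℓ => if ℓ ∣ N then 0 else eT ℓ) lam c := by
  intro ℓ hℓ n
  by_cases hN : ℓ ∣ N
  · simp only [if_pos hN, zero_mul, ite_self, add_zero]
    exact hU ℓ hℓ hN n
  · simp only [if_neg hN]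
    exact hT ℓ hℓ hN n

end Fermat.Agent.Lib.HeckeRecursion
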