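import Mathlib
import Fermat.Prelude.Def_ModularCurve_X0
import Fermat.Prelude.Def_ModularCurve_JqCoeff
import Fermat.Prelude.Def_ModularForm_HeckeOperator

/-!
# Analytic / formal dictionary for level-one q-expansions

* `Fermat.Agent.Lib.JDict.qExpansion_E4`:
  `qExpansion 1 E₄ = (ModularCurve.eisenstein4).map (Int.castRingHom ℂ)`.
* `Fermat.Agent.Lib.JDict.qExpansion_discriminant`:
  `qExpansion 1 Δ = (X * ModularCurve.dedekindEtaUnit).map (Int.castRingHom ℂ)`.
* `Fermat.Agent.Lib.JDict.vd d F = fun τ => F (d τ)` with `vd_mdiff`, `vd_bdd`, `vd_periodic` and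
  `qExpansion_vd_coeff` (the q-expansion of `F (d τ)` is the substitution `q ↦ q^d`).
* `Fermat.Agent.Lib.JDict.qExpansion_coeff_unique_fun`: uniqueness of q-expansion coefficients
  for plain functions on the upper half plane.
-/

set_option autoImplicit false

open UpperHalfPlane ModularForm MatrixGroups EisensteinSeries Filter Topology
open scoped PowerSeries.WithPiTopology Manifold

namespace Fermat.Agent.Lib.JDict

/-- The complex power series obtained from an integral one. -/
noncomputable abbrev toC (p : PowerSeries ℤ) : PowerSeries ℂ := p.map (Int.castRingHom ℂ)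

/-- **Dictionary, `E₄`.** -/
theorem qExpansion_E4 : qExpansion 1 E₄ = toC ModularCurve.eisenstein4 := by
  ext n
  rw [E_qExpansion_coeff _ ⟨2, rfl⟩, toC, PowerSeries.coeff_map, ModularCurve.eisenstein4,
    PowerSeries.coeff_mk]
  split_ifs with hn
  · simp
  · rw [ArithmeticFunction.sigma_apply]
    push_cast
    norm_num [show bernoulli 4 = -1 / 30 by decide +kernel]

/-! ### The eta product: analytic versus formal -/

/-- The analytic function `∏ (1 - q^(n+1))`. -/
noncomputable def etaFun (q : ℂ) : ℂ := ∏' n : ℕ, (1 - q ^ (n + 1))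

/-- Finite partial products, as polynomials over `ℤ`. -/
noncomputable def etaPoly (t : Finset ℕ) : Polynomial ℤ :=
  ∏ i ∈ t, (1 - Polynomial.X ^ (i + 1))

theorem etaPoly_eval (t : Finset ℕ) (q : ℂ) :
    ((etaPoly t).map (Int.castRingHom ℂ)).eval q = ∏ i ∈ t, (1 - q ^ (i + 1)) := by
  simp [etaPoly, Polynomial.map_prod, Polynomial.eval_prod]

theorem iteratedDeriv_polynomial (p : Polynomial ℂ) (m : ℕ) :
    iteratedDeriv m (fun x => p.eval x) = fun x => (Polynomial.derivative^[m] p).eval x := by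
  induction m generalizing p with
  | zero => simp
  | succ m ih =>
    rw [iteratedDeriv_succ', Function.iterate_succ_apply]
    have h : deriv (fun x => p.eval x) = fun x => (Polynomial.derivative p).eval x := by
      funext x
      exact Polynomial.deriv p
    rw [h, ih]

theorem iteratedDeriv_polynomial_zero (p : Polynomial ℂ) (m : ℕ) :
    iteratedDeriv m (fun x => p.eval x) 0 = (m.factorial : ℂ) * p.coeff m := by
  rw [iteratedDeriv_polynomial]
  show Polynomial.eval 0 (Polynomial.derivative^[m] p) = _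
  rw [← Polynomial.coeff_zero_eq_eval_zero,
    Polynomial.coeff_iterate_derivative, zero_add, Nat.descFactorial_self, nsmul_eq_mul]

theorem etaFun_hasProd :
    HasProdLocallyUniformlyOn (fun (n : ℕ) (q : ℂ) => 1 - q ^ (n + 1)) etaFun
      (Metric.ball (0 : ℂ) 1) :=
  multipliableLocallyUniformlyOn_one_sub_pow.hasProdLocallyUniformlyOn

theorem etaFun_differentiableOn : DifferentiableOn ℂ etaFun (Metric.ball (0 : ℂ) 1) :=
  differentiableOn_tprod_one_sub_pow

theorem tendsto_iteratedDeriv (m : ℕ) :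
    TendstoLocallyUniformlyOn
      (fun (t : Finset ℕ) => iteratedDeriv m
        (fun q => ((etaPoly t).map (Int.castRingHom ℂ)).eval q))
      (iteratedDeriv m etaFun) atTop (Metric.ball (0 : ℂ) 1) := by
  induction m with
  | zero =>
    have h := etaFun_hasProd
    rw [hasProdLocallyUniformlyOn_iff_tendstoLocallyUniformlyOn] at h
    simp only [iteratedDeriv_zero]
    refine h.congr_right ?_ |>.congr ?_
    · intro x _; rfl
    · intro t q _
      exact (etaPoly_eval t q).symm
  | succ m ih =>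
    have h := ih.deriv (Eventually.of_forall fun t => by
      rw [iteratedDeriv_polynomial]
      exact (Polynomial.differentiable _).differentiableOn) Metric.isOpen_ball
    simp only [iteratedDeriv_succ]
    exact h

theorem tendsto_coeff_etaPoly (m : ℕ) :
    ∀ᶠ t : Finset ℕ in atTop, (etaPoly t).coeff m = ModularCurve.etaProd.coeff m := by
  have h1 : HasProd (fun n : ℕ => (1 : PowerSeries ℤ) - PowerSeries.X ^ (n + 1))
      ModularCurve.etaProd :=
    (PowerSeries.WithPiTopology.multipliable_one_sub_X_pow ℤ).hasProd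
  have h2 : Tendsto (fun t : Finset ℕ =>
      PowerSeries.coeff m (∏ i ∈ t, ((1 : PowerSeries ℤ) - PowerSeries.X ^ (i + 1)))) atTop
      (𝓝 (PowerSeries.coeff m ModularCurve.etaProd)) :=
    ((PowerSeries.WithPiTopology.continuous_coeff ℤ m).tendsto _).comp h1
  rw [nhds_discrete, tendsto_pure] at h2
  filter_upwards [h2] with t ht
  rw [← ht, ← Polynomial.coeff_coe]
  congr 1
  have h3 := map_prod (Polynomial.coeToPowerSeries.ringHom (R := ℤ))
    (fun i : ℕ => (1 - Polynomial.X ^ (i + 1) : Polynomial ℤ)) t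
  simp only [Polynomial.coeToPowerSeries.ringHom_apply] at h3
  rw [etaPoly, h3]
  refine Finset.prod_congr rfl fun i _ => ?_
  simp

theorem iteratedDeriv_etaFun_zero (m : ℕ) :
    iteratedDeriv m etaFun 0 = (m.factorial : ℂ) * ((ModularCurve.etaProd.coeff m : ℤ) : ℂ) := by
  have h1 := (tendsto_iteratedDeriv m).tendsto_at (Metric.mem_ball_self one_pos)
  have h2 : Tendsto (fun (t : Finset ℕ) => iteratedDeriv m
      (fun q => ((etaPoly t).map (Int.castRingHom ℂ)).eval q) 0) atTop
      (𝓝 ((m.factorial : ℂ) * ((ModularCurve.etaProd.coeff m : ℤ) : ℂ))) := by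
    refine tendsto_const_nhds.congr' ?_
    filter_upwards [tendsto_coeff_etaPoly m] with t ht
    rw [iteratedDeriv_polynomial_zero, Polynomial.coeff_map, ht]
    rfl
  exact tendsto_nhds_unique h1 h2

/-- Taylor expansion of the eta product on the unit disc, with the formal coefficients. -/
theorem hasSum_etaFun {q : ℂ} (hq : ‖q‖ < 1) :
    HasSum (fun m : ℕ => (toC ModularCurve.etaProd).coeff m * q ^ m) (etaFun q) := by
  have hq' : q ∈ Metric.ball (0 : ℂ) 1 := by simpa using hq
  have h := Complex.hasSum_taylorSeries_on_ball etaFun_differentiableOn hq'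
  refine h.congr_fun ?_ |>.congr_fun fun m => rfl
  intro m
  rw [iteratedDeriv_etaFun_zero, toC, PowerSeries.coeff_map, sub_zero, smul_eq_mul, smul_eq_mul]
  have hm : (m.factorial : ℂ) ≠ 0 := by exact_mod_cast m.factorial_ne_zero
  field_simp
  rw [mul_comm]
  rfl

/-! ### Evaluating formal power series inside the unit disc -/

/-- The power series `p`, evaluated at `q`, converges absolutely to `v`. -/
def PSum (p : PowerSeries ℂ) (q v : ℂ) : Prop :=
  HasSum (fun m : ℕ => p.coeff m * q ^ m) v ∧ Summable (fun m : ℕ => ‖p.coeff m * q ^ m‖)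

theorem PSum.mul {p p' : PowerSeries ℂ} {q v v' : ℂ} (h : PSum p q v) (h' : PSum p' q v') :
    PSum (p * p') q (v * v') := by
  have key : ∀ n : ℕ, ∑ kl ∈ Finset.HasAntidiagonal.antidiagonal n,
      (p.coeff kl.1 * q ^ kl.1) * (p'.coeff kl.2 * q ^ kl.2) = (p * p').coeff n * q ^ n := by
    intro n
    rw [PowerSeries.coeff_mul, Finset.sum_mul]
    refine Finset.sum_congr rfl fun kl hkl => ?_
    rw [← Finset.HasAntidiagonal.mem_antidiagonal.mp hkl, pow_add]
    ring
  have h1 := summable_norm_sum_mul_antidiagonal_of_summable_norm h.2 h'.2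
  have h2 := tsum_mul_tsum_eq_tsum_sum_antidiagonal_of_summable_norm h.2 h'.2
  simp only [key] at h1 h2
  refine ⟨?_, h1⟩
  rw [h.1.tsum_eq, h'.1.tsum_eq] at h2
  rw [h2]
  exact h1.of_norm.hasSum

theorem PSum.one (q : ℂ) : PSum 1 q 1 := by
  have h : (fun m : ℕ => (1 : PowerSeries ℂ).coeff m * q ^ m) = fun m => if m = 0 then 1 else 0 := by
    funext m
    rw [PowerSeries.coeff_one]
    split_ifs with hm
    · subst hm; simp
    · simp
  refine ⟨?_, ?_⟩
  · rw [h]
    exact hasSum_ite_eq 0 1
  · refine summable_of_ne_finset_zero (s := {0}) fun m hm => ?_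
    have hm' : m ≠ 0 := by simpa using hm
    rw [congrFun h m]
    simp [hm']

theorem PSum.X (q : ℂ) : PSum PowerSeries.X q q := by
  have h : (fun m : ℕ => (PowerSeries.X : PowerSeries ℂ).coeff m * q ^ m)
      = fun m => if m = 1 then q else 0 := by
    funext m
    rw [PowerSeries.coeff_X]
    split_ifs with hm
    · subst hm; simp
    · simp
  refine ⟨?_, ?_⟩
  · rw [h]
    exact hasSum_ite_eq 1 q
  · refine summable_of_ne_finset_zero (s := {1}) fun m hm => ?_
    have hm' : m ≠ 1 := by simpa using hm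
    rw [congrFun h m]
    simp [hm']

theorem PSum.pow {p : PowerSeries ℂ} {q v : ℂ} (h : PSum p q v) (n : ℕ) :
    PSum (p ^ n) q (v ^ n) := by
  induction n with
  | zero => simpa using PSum.one q
  | succ n ih =>
    rw [pow_succ, pow_succ]
    exact ih.mul h

/-- A power series that converges on the whole open unit disc converges absolutely there. -/
theorem summable_norm_of_hasSum_unitDisc {a : ℕ → ℂ} {F : ℂ → ℂ}
    (h : ∀ q : ℂ, ‖q‖ < 1 → HasSum (fun m : ℕ => a m * q ^ m) (F q)) {q : ℂ} (hq : ‖q‖ < 1) :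
    Summable (fun m : ℕ => ‖a m * q ^ m‖) := by
  set r : ℝ := (1 + ‖q‖) / 2 with hr
  have hr1 : r < 1 := by rw [hr]; linarith
  have hr0 : 0 < r := by rw [hr]; linarith [norm_nonneg q]
  have hqr : ‖q‖ < r := by rw [hr]; linarith
  clear_value r
  have hrn : ‖(r : ℂ)‖ < 1 := by
    rw [Complex.norm_real, Real.norm_of_nonneg hr0.le]
    exact hr1
  have h1 := (h (r : ℂ) hrn).summable.tendsto_atTop_zero
  obtain ⟨C, hC⟩ := (Metric.isBounded_range_of_tendsto _ h1).exists_norm_le
  have hC' : ∀ m : ℕ, ‖a m‖ * r ^ m ≤ C := by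
    intro m
    have := hC _ (Set.mem_range_self m)
    rwa [norm_mul, norm_pow, Complex.norm_real, Real.norm_of_nonneg hr0.le] at this
  have hρ : ‖q‖ / r < 1 := (div_lt_one hr0).mpr hqr
  have hρ0 : 0 ≤ ‖q‖ / r := div_nonneg (norm_nonneg q) hr0.le
  refine Summable.of_nonneg_of_le (fun m => norm_nonneg _) (fun m => ?_)
    ((summable_geometric_of_lt_one hρ0 hρ).mul_left C)
  rw [norm_mul, norm_pow]
  have e : ‖a m‖ * ‖q‖ ^ m = (‖a m‖ * r ^ m) * (‖q‖ / r) ^ m := by
    rw [div_pow]
    field_simp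
  rw [e]
  exact mul_le_mul_of_nonneg_right (hC' m) (pow_nonneg hρ0 m)

theorem PSum_etaProd {q : ℂ} (hq : ‖q‖ < 1) : PSum (toC ModularCurve.etaProd) q (etaFun q) :=
  ⟨hasSum_etaFun hq, summable_norm_of_hasSum_unitDisc (fun _ h => hasSum_etaFun h) hq⟩

/-- **Dictionary, `Δ`.** The q-expansion of the modular discriminant is the formal product
`X * ∏ (1 - X^(n+1))^24`. -/
theorem qExpansion_discriminant :
    qExpansion 1 ModularForm.discriminant
      = toC (PowerSeries.X * ModularCurve.dedekindEtaUnit) := by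
  ext m
  symm
  refine ModularFormClass.qExpansion_coeff_unique one_pos one_mem_strictPeriods_SL
    (f := CuspForm.discriminant)
    (c := fun m => (toC (PowerSeries.X * ModularCurve.dedekindEtaUnit)).coeff m) ?_ m
  intro τ
  set q : ℂ := Function.Periodic.qParam 1 τ with hq
  have hqn : ‖q‖ < 1 := by
    rw [hq]
    simpa using (Function.Periodic.norm_qParam_lt_iff zero_lt_one 0 τ.1).mpr τ.2
  have hΔ : CuspForm.discriminant τ = q * etaFun q ^ 24 := by
    rw [CuspForm.coe_discriminant, ModularForm.discriminant_eq_q_prod, etaFun,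
      ← (multipliable_one_sub_pow hqn).tprod_pow 24]
  have hP : PSum (toC (PowerSeries.X * ModularCurve.dedekindEtaUnit)) q (q * etaFun q ^ 24) := by
    have e : toC (PowerSeries.X * ModularCurve.dedekindEtaUnit)
        = PowerSeries.X * (toC ModularCurve.etaProd) ^ 24 := by
      rw [toC, map_mul, ModularCurve.dedekindEtaUnit, map_pow, PowerSeries.map_X]
    rw [e]
    exact (PSum.X q).mul ((PSum_etaProd hqn).pow 24)
  rw [hΔ]
  simpa [smul_eq_mul] using hP.1

/-! ### The operator `V_d : F(τ) ↦ F(d τ)` -/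

/-- `vd d F τ = F (d τ)`. -/
noncomputable def vd (d : ℕ) (F : ℍ → ℂ) : ℍ → ℂ :=
  fun τ => F (ModularForm.heckeDiagMatrix d • τ)

theorem vd_mdiff (d : ℕ) {F : ℍ → ℂ} (hF : MDiff F) : MDiff (vd d F) :=
  hF.comp (UpperHalfPlane.mdifferentiable_smul (ModularForm.det_heckeDiagMatrix_pos d))

theorem im_heckeDiagMatrix_smul {d : ℕ} (hd : d ≠ 0) (τ : ℍ) :
    (ModularForm.heckeDiagMatrix d • τ).im = d * τ.im := by
  have h := ModularForm.coe_heckeDiagMatrix_smul hd τ
  have h2 := congrArg Complex.im h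
  simpa using h2

theorem vd_bdd {d : ℕ} (hd : d ≠ 0) {F : ℍ → ℂ} (hF : IsBoundedAtImInfty F) :
    IsBoundedAtImInfty (vd d F) := by
  rw [UpperHalfPlane.isBoundedAtImInfty_iff] at hF ⊢
  obtain ⟨M, A, h⟩ := hF
  refine ⟨M, max A 0, fun z hz => h _ ?_⟩
  rw [im_heckeDiagMatrix_smul hd]
  have h1 : (1 : ℝ) ≤ d := by exact_mod_cast Nat.one_le_iff_ne_zero.mpr hd
  have h2 : A ≤ z.im := (le_max_left _ _).trans hz
  have h3 : 0 ≤ z.im := (le_max_right _ _).trans hz
  nlinarith

theorem vd_periodic {d : ℕ} (hd : d ≠ 0) {F : ℍ → ℂ}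
    (hper : Function.Periodic (F ∘ ofComplex) 1) : Function.Periodic (vd d F ∘ ofComplex) 1 := by
  intro w
  by_cases hw : 0 < w.im
  · have hw1 : 0 < (w + 1).im := by simpa using hw
    have hdw : 0 < ((d : ℂ) * w).im := by
      simp only [Complex.mul_im, Complex.natCast_re, Complex.natCast_im, zero_mul, add_zero]
      exact mul_pos (by exact_mod_cast Nat.pos_of_ne_zero hd) hw
    simp only [Function.comp_apply, vd, ofComplex_apply_of_im_pos hw1, ofComplex_apply_of_im_pos hw]
    have e1 : ModularForm.heckeDiagMatrix d • (⟨w + 1, hw1⟩ : ℍ)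
        = ofComplex ((d : ℂ) * w + ((d : ℕ) : ℂ) * 1) := by
      apply UpperHalfPlane.ext
      rw [ModularForm.coe_heckeDiagMatrix_smul hd, ofComplex_apply_of_im_pos (by simpa using hdw)]
      ring
    have e2 : ModularForm.heckeDiagMatrix d • (⟨w, hw⟩ : ℍ) = ofComplex ((d : ℂ) * w) := by
      apply UpperHalfPlane.ext
      rw [ModularForm.coe_heckeDiagMatrix_smul hd, ofComplex_apply_of_im_pos hdw]
    rw [e1, e2]
    exact (hper.nat_mul d) ((d : ℂ) * w)
  · have hw' : w.im ≤ 0 := not_lt.mp hw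
    have hw1 : (w + 1).im ≤ 0 := by simpa using hw'
    simp only [Function.comp_apply]
    rw [ofComplex_apply_eq_of_im_nonpos hw1 hw']

theorem qParam_heckeDiagMatrix {d : ℕ} (hd : d ≠ 0) (τ : ℍ) :
    Function.Periodic.qParam 1 (ModularForm.heckeDiagMatrix d • τ : ℍ)
      = Function.Periodic.qParam 1 τ ^ d := by
  rw [ModularForm.coe_heckeDiagMatrix_smul hd, Function.Periodic.qParam, Function.Periodic.qParam,
    ← Complex.exp_nat_mul]
  congr 1
  push_cast
  ring

/-- Uniqueness of q-expansion coefficients, for plain functions on `ℍ`. -/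
theorem qExpansion_coeff_unique_fun {f : ℍ → ℂ} {c : ℕ → ℂ}
    (hfanalytic : AnalyticAt ℂ (cuspFunction 1 f) 0)
    (hf : ∀ τ : ℍ, HasSum (fun m ↦ c m • Function.Periodic.qParam 1 τ ^ m) (f τ)) (m : ℕ) :
    c m = (qExpansion 1 f).coeff m := by
  have h1 := (UpperHalfPlane.hasFPowerSeriesOnBall_cuspFunction one_pos hfanalytic
    hf).hasFPowerSeriesAt
  have h2 := hfanalytic.hasFPowerSeriesAt
  have h3 := congr_arg (FormalMultilinearSeries.coeff · m) (h1.eq_formalMultilinearSeries h2)
  rw [qExpansion_coeff]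
  simpa [div_eq_mul_inv, mul_comm] using h3

/-- **Dictionary, `V_d`.** q-expansion of `τ ↦ F (d τ)`. -/
theorem qExpansion_vd_coeff {d : ℕ} (hd : d ≠ 0) {F : ℍ → ℂ}
    (hper : Function.Periodic (F ∘ ofComplex) 1) (hhol : MDiff F) (hbdd : IsBoundedAtImInfty F)
    (n : ℕ) :
    (qExpansion 1 (vd d F)).coeff n = if d ∣ n then (qExpansion 1 F).coeff (n / d) else 0 := by
  symm
  refine qExpansion_coeff_unique_fun (f := vd d F)
    (UpperHalfPlane.analyticAt_cuspFunction_zero one_pos (vd_periodic hd hper) (vd_mdiff d hhol)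
      (vd_bdd hd hbdd))
    (c := fun n => if d ∣ n then (qExpansion 1 F).coeff (n / d) else 0) ?_ n
  intro τ
  have h := UpperHalfPlane.hasSum_qExpansion one_pos hper hhol hbdd
    (ModularForm.heckeDiagMatrix d • τ)
  rw [qParam_heckeDiagMatrix hd] at h
  have hinj : Function.Injective (fun m : ℕ => d * m) := fun a b hab =>
    Nat.eq_of_mul_eq_mul_left (Nat.pos_of_ne_zero hd) hab
  refine (hinj.hasSum_iff ?_).mp ?_
  · intro n hn
    have hnd : ¬ d ∣ n := fun ⟨m, hm⟩ => hn ⟨m, hm.symm⟩
    simp [hnd]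
  · refine h.congr_fun fun m => ?_
    simp only [Function.comp_apply, dvd_mul_right, if_true,
      Nat.mul_div_cancel_left m (Nat.pos_of_ne_zero hd), smul_eq_mul]
    rw [pow_mul]

end Fermat.Agent.Lib.JDict
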