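import Mathlib

/-!
# The standard regular sequence of a power series ring over a discrete valuation ring

For a commutative ring `O` and a list `l` of distinct variables, `l.map X` is a weakly regular
sequence of `MvPowerSeries σ O`, and the ideal it generates consists of the power series all of
whose coefficients at monomials not involving the variables of `l` vanish.
If `O` is local with maximal ideal generated by a non-zero-divisor `ϖ` and `l` lists all the
variables, then `l.map X ++ [C ϖ]` is a regular sequence generating the maximal ideal.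
-/

namespace Fermat.Agent.Lib.MvPowerSeriesRegular

open MvPowerSeries RingTheory.Sequence

variable {σ : Type*} {O : Type*} [CommRing O]

/-- Membership in the ideal generated by a list of variables. -/
theorem mem_ofList_map_X_iff (l : List σ) (f : MvPowerSeries σ O) :
    f ∈ Ideal.ofList (l.map (X : σ → MvPowerSeries σ O)) ↔
      ∀ m : σ →₀ ℕ, (∀ s ∈ l, m s = 0) → coeff m f = 0 := by
  classical
  induction l generalizing f with
  | nil =>
    simp only [List.map_nil, Ideal.ofList_nil, Ideal.mem_bot, List.not_mem_nil, false_imp_iff,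
      implies_true, forall_true_left]
    exact eq_zero_iff_forall_coeff_zero
  | cons s l ih =>
    rw [List.map_cons, Ideal.ofList_cons, Submodule.mem_sup]
    constructor
    · rintro ⟨a, ha, b, hb, rfl⟩ m hm
      rw [Ideal.mem_span_singleton] at ha
      rw [map_add, X_dvd_iff.mp ha m (hm s List.mem_cons_self),
        (ih b).mp hb m (fun t ht => hm t (List.mem_cons_of_mem _ ht)), add_zero]
    · intro h
      let g : MvPowerSeries σ O := fun m => if ∀ t ∈ l, m t = 0 then coeff m f else 0
      have hg : ∀ m, coeff m g = if ∀ t ∈ l, m t = 0 then coeff m f else 0 := fun m => rfl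
      refine ⟨g, ?_, f - g, ?_, by ring⟩
      · rw [Ideal.mem_span_singleton, X_dvd_iff]
        intro m hm
        rw [hg]
        split_ifs with h1
        · exact h m (by
            intro t ht
            rcases List.mem_cons.mp ht with rfl | ht
            · exact hm
            · exact h1 t ht)
        · rfl
      · rw [ih]
        intro m hm
        rw [map_sub, hg, if_pos hm, sub_self]

/-- A variable not in the list is regular modulo the variables of the list. -/
theorem isSMulRegular_quot_X (l : List σ) (s : σ) (hs : s ∉ l) :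
    IsSMulRegular (MvPowerSeries σ O ⧸ (Ideal.ofList (l.map (X : σ → MvPowerSeries σ O)) • ⊤ :
      Submodule (MvPowerSeries σ O) (MvPowerSeries σ O))) (X s : MvPowerSeries σ O) := by
  classical
  rw [isSMulRegular_quotient_iff_mem_of_smul_mem]
  intro f hf
  rw [smul_eq_mul, Ideal.mul_top] at hf ⊢
  rw [mem_ofList_map_X_iff] at hf ⊢
  intro m hm
  have h1 := hf (Finsupp.single s 1 + m) (fun t ht => by
    have hts : t ≠ s := fun h => hs (h ▸ ht)
    simp [hm t ht, hts.symm])
  rwa [smul_eq_mul, X_def, coeff_add_monomial_mul, one_mul] at h1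

/-- Distinct variables form a weakly regular sequence. -/
theorem isWeaklyRegular_map_X (l : List σ) (hl : l.Nodup) :
    IsWeaklyRegular (MvPowerSeries σ O) (l.map (X : σ → MvPowerSeries σ O)) := by
  induction l using List.reverseRecOn with
  | nil => exact IsWeaklyRegular.nil _ _
  | append_singleton l s ih =>
    rw [List.map_append, List.map_singleton, isWeaklyRegular_append_iff,
      isWeaklyRegular_singleton_iff]
    have hl' := List.nodup_append.mp hl
    refine ⟨ih hl'.1, isSMulRegular_quot_X l s (fun hs => ?_)⟩
    exact hl'.2.2 s hs s (List.mem_singleton_self s) rfl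

/-- A constant which is a non-zero-divisor of the coefficient ring is regular modulo variables. -/
theorem isSMulRegular_quot_C (l : List σ) (ϖ : O) (hϖ : IsSMulRegular O ϖ) :
    IsSMulRegular (MvPowerSeries σ O ⧸ (Ideal.ofList (l.map (X : σ → MvPowerSeries σ O)) • ⊤ :
      Submodule (MvPowerSeries σ O) (MvPowerSeries σ O))) (C ϖ : MvPowerSeries σ O) := by
  rw [isSMulRegular_quotient_iff_mem_of_smul_mem]
  intro f hf
  rw [smul_eq_mul, Ideal.mul_top] at hf ⊢
  rw [mem_ofList_map_X_iff] at hf ⊢
  intro m hm
  have h1 := hf m hm
  rw [smul_eq_mul, coeff_C_mul] at h1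
  exact hϖ (by simpa using h1)

/-- The ideal generated by all the variables and a generator of the maximal ideal of the
coefficient ring is the maximal ideal. -/
theorem ofList_X_append_C_eq_maximalIdeal [IsLocalRing O] (l : List σ) (hmem : ∀ s, s ∈ l)
    (ϖ : O) (hmax : IsLocalRing.maximalIdeal O = Ideal.span {ϖ}) :
    Ideal.ofList (l.map (X : σ → MvPowerSeries σ O) ++ [C ϖ]) =
      IsLocalRing.maximalIdeal (MvPowerSeries σ O) := by
  classical
  ext f
  rw [Ideal.ofList_append, Ideal.ofList_singleton, Submodule.mem_sup, IsLocalRing.mem_maximalIdeal,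
    mem_nonunits_iff, MvPowerSeries.isUnit_iff_constantCoeff, ← mem_nonunits_iff,
    ← IsLocalRing.mem_maximalIdeal, hmax, Ideal.mem_span_singleton]
  constructor
  · rintro ⟨a, ha, b, hb, rfl⟩
    rw [Ideal.mem_span_singleton] at hb
    obtain ⟨g, rfl⟩ := hb
    have ha0 : constantCoeff a = 0 := by
      rw [← coeff_zero_eq_constantCoeff_apply]
      exact (mem_ofList_map_X_iff l a).mp ha 0 (fun _ _ => rfl)
    rw [map_add, ha0, zero_add, map_mul, constantCoeff_C]
    exact dvd_mul_right _ _
  · rintro ⟨c, hc⟩
    refine ⟨f - C ϖ * C c, ?_, C ϖ * C c, Ideal.mem_span_singleton.mpr (dvd_mul_right _ _),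
      by ring⟩
    rw [mem_ofList_map_X_iff]
    intro m hm
    have hm0 : m = 0 := Finsupp.ext fun s => hm s (hmem s)
    subst hm0
    rw [coeff_zero_eq_constantCoeff_apply, map_sub, map_mul, constantCoeff_C, constantCoeff_C, hc,
      sub_self]

/-- The variables followed by a generator of the maximal ideal of the coefficient ring form a
regular sequence of the power series ring. -/
theorem isRegular_X_append_C [IsLocalRing O] (l : List σ) (hl : l.Nodup) (hmem : ∀ s, s ∈ l)
    (ϖ : O) (hϖ : IsSMulRegular O ϖ) (hmax : IsLocalRing.maximalIdeal O = Ideal.span {ϖ}) :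
    IsRegular (MvPowerSeries σ O) (l.map (X : σ → MvPowerSeries σ O) ++ [C ϖ]) := by
  refine ⟨?_, ?_⟩
  · rw [isWeaklyRegular_append_iff, isWeaklyRegular_singleton_iff]
    exact ⟨isWeaklyRegular_map_X l hl, isSMulRegular_quot_C l ϖ hϖ⟩
  · rw [smul_eq_mul, Ideal.mul_top, ofList_X_append_C_eq_maximalIdeal l hmem ϖ hmax]
    exact (IsLocalRing.maximalIdeal.isMaximal _).ne_top.symm

end Fermat.Agent.Lib.MvPowerSeriesRegular
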