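import Mathlib

/-!
# Power series rings over a complete local ring: evaluation, completeness, compactness

Infrastructure for `S = MvPowerSeries σ R` with `σ` finite.
-/

namespace Fermat.Agent.Lib.PowerSeriesLocal

open MvPowerSeries

section Basic

variable {σ : Type*} [Finite σ] {R : Type*} [CommRing R]

/-- The ideal generated by the variables of a power series ring. -/
noncomputable abbrev varIdeal (σ : Type*) (R : Type*) [CommRing R] : Ideal (MvPowerSeries σ R) :=
  Ideal.span (Set.range (X : σ → MvPowerSeries σ R))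

theorem map_varIdeal :
    Ideal.map (toAdicCompletionAlgEquiv σ R).toRingEquiv (varIdeal σ R) =
      (MvPolynomial.idealOfVars σ R).map
        (algebraMap (MvPolynomial σ R)
          (AdicCompletion (MvPolynomial.idealOfVars σ R) (MvPolynomial σ R))) := by
  simp_rw [varIdeal, Ideal.map_span, ← Set.range_comp]
  congr 2; ext1
  simp [AdicCompletion.algebraMap_apply, ← MvPolynomial.coe_X, toAdicCompletion_coe]

/-- A power series all of whose coefficients of total degree `< n` vanish lies in the `n`-th power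
of the ideal generated by the variables. -/
theorem mem_varIdeal_pow_of_coeff_eq_zero (n : ℕ) (g : MvPowerSeries σ R)
    (hg : ∀ x : σ →₀ ℕ, Finsupp.degree x < n → coeff x g = 0) :
    g ∈ varIdeal σ R ^ n := by
  have h2 : toAdicCompletionAlgEquiv σ R g ∈
      (MvPolynomial.idealOfVars σ R ^ n • ⊤ : Submodule (MvPolynomial σ R)
        (AdicCompletion (MvPolynomial.idealOfVars σ R) (MvPolynomial σ R))) := by
    rw [AdicCompletion.pow_smul_top_eq_ker_eval (MvPolynomial.idealOfVars_fg σ R),
      LinearMap.mem_ker, AdicCompletion.eval_apply, toAdicCompletionAlgEquiv_apply,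
      toAdicCompletion_apply_eq_mk_truncTotal]
    have h0 : truncTotal n g = 0 := by
      ext x
      by_cases hx : Finsupp.degree x < n
      · rw [coeff_truncTotal _ hx, hg x hx, MvPolynomial.coeff_zero]
      · rw [coeff_truncTotal_eq_zero _ (not_lt.mp hx), MvPolynomial.coeff_zero]
    rw [h0, map_zero]
  rw [Ideal.smul_top_eq_map] at h2
  have h3 : toAdicCompletionAlgEquiv σ R g ∈
      Ideal.map (toAdicCompletionAlgEquiv σ R).toRingEquiv (varIdeal σ R ^ n) := by
    rw [Ideal.map_pow, map_varIdeal, ← Ideal.map_pow]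
    exact h2
  obtain ⟨y, hy, hyg⟩ := (Ideal.mem_map_of_equiv _ _).mp h3
  have : y = g := (toAdicCompletionAlgEquiv σ R).injective hyg
  exact this ▸ hy

/-- A power series differs from its truncation by an element of the `n`-th power of the ideal
generated by the variables. -/
theorem sub_truncTotal_mem_varIdeal_pow (n : ℕ) (f : MvPowerSeries σ R) :
    f - (truncTotal n f : MvPolynomial σ R) ∈ varIdeal σ R ^ n := by
  apply mem_varIdeal_pow_of_coeff_eq_zero
  intro x hx
  rw [map_sub, MvPolynomial.coeff_coe, coeff_truncTotal _ hx, sub_self]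

end Basic

section Eval

variable {σ : Type*} [Finite σ] {R : Type*} [CommRing R]
variable {A : Type*} [CommRing A] [Algebra R A]

theorem aeval_eq_zero_of_mem_pow (a : σ → A) (N : ℕ) (hN : Ideal.span (Set.range a) ^ N = ⊥)
    (p : MvPolynomial σ R) (hp : p ∈ MvPolynomial.idealOfVars σ R ^ N) :
    MvPolynomial.aeval a p = 0 := by
  have h1 : (MvPolynomial.idealOfVars σ R ^ N).map (MvPolynomial.aeval a (R := R)).toRingHom ≤
      Ideal.span (Set.range a) ^ N := by
    rw [Ideal.map_pow]
    apply Ideal.pow_right_mono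
    rw [MvPolynomial.idealOfVars, Ideal.map_span, ← Set.range_comp]
    apply Ideal.span_mono
    rintro _ ⟨s, rfl⟩
    exact ⟨s, by simp⟩
  have h2 := h1 (Ideal.mem_map_of_mem _ hp)
  rw [hN] at h2
  exact h2

/-- Evaluation of power series at a family generating a nilpotent ideal. -/
noncomputable def evalNilp (a : σ → A) (N : ℕ) (hN : Ideal.span (Set.range a) ^ N = ⊥) :
    MvPowerSeries σ R →ₐ[R] A :=
  (Ideal.Quotient.liftₐ (MvPolynomial.idealOfVars σ R ^ N) (MvPolynomial.aeval a)
    (aeval_eq_zero_of_mem_pow a N hN)).comp ((truncTotalAlgHom σ R N).restrictScalars R)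

theorem evalNilp_apply (a : σ → A) (N : ℕ) (hN : Ideal.span (Set.range a) ^ N = ⊥)
    (f : MvPowerSeries σ R) :
    evalNilp a N hN f = MvPolynomial.aeval a (truncTotal N f) := rfl

theorem evalNilp_coe (a : σ → A) (N : ℕ) (hN : Ideal.span (Set.range a) ^ N = ⊥)
    (p : MvPolynomial σ R) :
    evalNilp a N hN (p : MvPowerSeries σ R) = MvPolynomial.aeval a p := by
  have h := AlgHom.commutes (truncTotalAlgHom σ R N) p
  have h2 : (algebraMap (MvPolynomial σ R) (MvPowerSeries σ R)) p = (p : MvPowerSeries σ R) := rfl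
  rw [h2] at h
  show (Ideal.Quotient.liftₐ (MvPolynomial.idealOfVars σ R ^ N) (MvPolynomial.aeval a)
    (aeval_eq_zero_of_mem_pow a N hN)) ((truncTotalAlgHom σ R N) (p : MvPowerSeries σ R)) = _
  rw [h]
  rfl

theorem evalNilp_X (a : σ → A) (N : ℕ) (hN : Ideal.span (Set.range a) ^ N = ⊥) (s : σ) :
    evalNilp a N hN (X s : MvPowerSeries σ R) = a s := by
  rw [← MvPolynomial.coe_X, evalNilp_coe, MvPolynomial.aeval_X]

end Eval

section Uniq
variable {σ : Type*} [Finite σ] {R : Type*} [CommRing R]
variable {A : Type*} [CommRing A] [Algebra R A]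

/-- An `R`-algebra hom out of a power series ring maps the `n`-th power of the variable ideal
into the `n`-th power of any ideal containing the images of the variables. -/
theorem map_mem_pow_of_mem_varIdeal_pow (φ : MvPowerSeries σ R →ₐ[R] A) (I : Ideal A)
    (hI : ∀ s, φ (X s) ∈ I) (n : ℕ) (g : MvPowerSeries σ R) (hg : g ∈ varIdeal σ R ^ n) :
    φ g ∈ I ^ n := by
  have h1 : (varIdeal σ R ^ n).map φ.toRingHom ≤ I ^ n := by
    rw [Ideal.map_pow]
    apply Ideal.pow_right_mono
    rw [varIdeal, Ideal.map_span, Ideal.span_le]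
    rintro _ ⟨_, ⟨s, rfl⟩, rfl⟩
    exact hI s
  exact h1 (Ideal.mem_map_of_mem _ hg)

/-- Two algebra homs out of a power series ring which agree on the variables are equal, provided
the target is separated for an ideal containing the images of the variables. -/
theorem algHom_ext_of_isHausdorff (φ ψ : MvPowerSeries σ R →ₐ[R] A) (I : Ideal A)
    [IsHausdorff I A] (hI : ∀ s, φ (X s) ∈ I) (h : ∀ s, φ (X s) = ψ (X s)) : φ = ψ := by
  ext f
  have key : ∀ n : ℕ, φ f - ψ f ∈ I ^ n := by
    intro n
    have hp : φ ((truncTotal n f : MvPolynomial σ R) : MvPowerSeries σ R) =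
        ψ ((truncTotal n f : MvPolynomial σ R) : MvPowerSeries σ R) := by
      have e1 : (φ.comp (MvPolynomial.coeToMvPowerSeries.algHom R)) =
          (ψ.comp (MvPolynomial.coeToMvPowerSeries.algHom R)) := by
        apply MvPolynomial.algHom_ext
        intro s
        simpa using h s
      exact DFunLike.congr_fun e1 (truncTotal n f)
    have h1 := map_mem_pow_of_mem_varIdeal_pow φ I hI n _ (sub_truncTotal_mem_varIdeal_pow n f)
    have h2 := map_mem_pow_of_mem_varIdeal_pow ψ I (fun s => h s ▸ hI s) n _
      (sub_truncTotal_mem_varIdeal_pow n f)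
    rw [map_sub] at h1 h2
    have : φ f - ψ f = (φ f - φ ((truncTotal n f : MvPolynomial σ R) : MvPowerSeries σ R)) -
        (ψ f - ψ ((truncTotal n f : MvPolynomial σ R) : MvPowerSeries σ R)) := by
      rw [hp]; ring
    rw [this]
    exact sub_mem h1 h2
  have h0 : φ f - ψ f = 0 := by
    apply IsHausdorff.haus (I := I) ‹_›
    intro n
    rw [SModEq.zero, smul_eq_mul, Ideal.mul_top]
    exact key n
  exact sub_eq_zero.mp h0

end Uniq

section Coeff
variable {σ : Type*} [Finite σ] {R : Type*} [CommRing R]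

/-- The ideal of power series whose coefficient at `x` lies in `I ^ (n - degree x)`. -/
def wtIdeal (σ : Type*) {R : Type*} [CommRing R] (I : Ideal R) (n : ℕ) :
    Ideal (MvPowerSeries σ R) where
  carrier := {g | ∀ x : σ →₀ ℕ, coeff x g ∈ I ^ (n - Finsupp.degree x)}
  add_mem' := fun {g h} hg hh x => by rw [map_add]; exact add_mem (hg x) (hh x)
  zero_mem' := fun x => by rw [map_zero]; exact zero_mem _
  smul_mem' := fun c g hg x => by
    classical
    rw [smul_eq_mul, coeff_mul]
    refine Ideal.sum_mem _ fun pq hpq => ?_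
    have h1 := hg pq.2
    have hle : n - Finsupp.degree x ≤ n - Finsupp.degree pq.2 := by
      have := Finset.HasAntidiagonal.mem_antidiagonal.mp hpq
      rw [← this, map_add]
      omega
    exact Ideal.mul_mem_left _ _ (Ideal.pow_le_pow_right hle h1)

theorem mem_wtIdeal {I : Ideal R} {n : ℕ} {g : MvPowerSeries σ R} :
    g ∈ wtIdeal σ I n ↔ ∀ x : σ →₀ ℕ, coeff x g ∈ I ^ (n - Finsupp.degree x) := Iff.rfl

theorem wtIdeal_mul_le (I : Ideal R) (a b : ℕ) :
    wtIdeal σ I a * wtIdeal σ I b ≤ wtIdeal σ I (a + b) := by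
  classical
  rw [Ideal.mul_le]
  intro g hg h hh x
  rw [coeff_mul]
  refine Ideal.sum_mem _ fun pq hpq => ?_
  have h1 := hg pq.1
  have h2 := hh pq.2
  have hle : a + b - Finsupp.degree x ≤ (a - Finsupp.degree pq.1) + (b - Finsupp.degree pq.2) := by
    have := Finset.HasAntidiagonal.mem_antidiagonal.mp hpq
    rw [← this, map_add]
    omega
  exact Ideal.pow_le_pow_right hle (by rw [pow_add]; exact Ideal.mul_mem_mul h1 h2)

theorem wtIdeal_zero (I : Ideal R) : wtIdeal σ I 0 = ⊤ := by
  rw [Ideal.eq_top_iff_one, mem_wtIdeal]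
  intro x
  simp

theorem pow_wtIdeal_one_le (I : Ideal R) (n : ℕ) : wtIdeal σ I 1 ^ n ≤ wtIdeal σ I n := by
  induction n with
  | zero => rw [pow_zero, wtIdeal_zero, Ideal.one_eq_top]
  | succ n ih =>
    rw [pow_succ]
    exact (Ideal.mul_mono_left ih).trans (wtIdeal_mul_le I n 1)

end Coeff

section Local
variable {σ : Type*} [Finite σ] {R : Type*} [CommRing R] [IsLocalRing R]

open IsLocalRing

omit [Finite σ] in
theorem mem_maximalIdeal_iff (g : MvPowerSeries σ R) :
    g ∈ maximalIdeal (MvPowerSeries σ R) ↔ constantCoeff g ∈ maximalIdeal R := by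
  rw [mem_maximalIdeal, mem_nonunits_iff, MvPowerSeries.isUnit_iff_constantCoeff,
    mem_maximalIdeal, mem_nonunits_iff]

theorem maximalIdeal_eq_wtIdeal :
    maximalIdeal (MvPowerSeries σ R) = wtIdeal σ (maximalIdeal R) 1 := by
  ext g
  rw [mem_maximalIdeal_iff, mem_wtIdeal]
  constructor
  · intro h x
    by_cases hx : x = 0
    · subst hx
      simpa using h
    · have : 1 - Finsupp.degree x = 0 := by
        have : Finsupp.degree x ≠ 0 := by
          rw [Ne, Finsupp.degree_eq_zero_iff]
          exact hx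
        omega
      rw [this, pow_zero, Ideal.one_eq_top]
      trivial
  · intro h
    simpa using h 0

theorem X_mem_maximalIdeal (s : σ) : (X s : MvPowerSeries σ R) ∈ maximalIdeal (MvPowerSeries σ R) := by
  rw [mem_maximalIdeal_iff, constantCoeff_X]
  exact zero_mem _

theorem varIdeal_le_maximalIdeal : varIdeal σ R ≤ maximalIdeal (MvPowerSeries σ R) := by
  rw [varIdeal, Ideal.span_le]
  rintro _ ⟨s, rfl⟩
  exact X_mem_maximalIdeal s

theorem C_mem_maximalIdeal_pow (j : ℕ) (c : R) (hc : c ∈ maximalIdeal R ^ j) :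
    (C c : MvPowerSeries σ R) ∈ maximalIdeal (MvPowerSeries σ R) ^ j := by
  have h1 : (maximalIdeal R ^ j).map (C : R →+* MvPowerSeries σ R) ≤
      maximalIdeal (MvPowerSeries σ R) ^ j := by
    rw [Ideal.map_pow]
    apply Ideal.pow_right_mono
    rw [Ideal.map_le_iff_le_comap]
    intro a ha
    rw [Ideal.mem_comap, mem_maximalIdeal_iff, constantCoeff_C]
    exact ha
  exact h1 (Ideal.mem_map_of_mem _ hc)

omit [IsLocalRing R] in
theorem monomial_one_mem_varIdeal_pow (x : σ →₀ ℕ) :
    (monomial x (1 : R) : MvPowerSeries σ R) ∈ varIdeal σ R ^ (Finsupp.degree x) := by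
  classical
  apply mem_varIdeal_pow_of_coeff_eq_zero
  intro y hy
  rw [coeff_monomial, if_neg]
  rintro rfl
  exact lt_irrefl _ hy

theorem wtIdeal_le_maximalIdeal_pow (n : ℕ) :
    wtIdeal σ (maximalIdeal R) n ≤ maximalIdeal (MvPowerSeries σ R) ^ n := by
  classical
  intro g hg
  have h1 : g - (truncTotal n g : MvPolynomial σ R) ∈ maximalIdeal (MvPowerSeries σ R) ^ n :=
    Ideal.pow_right_mono varIdeal_le_maximalIdeal n (sub_truncTotal_mem_varIdeal_pow n g)
  have h2 : ((truncTotal n g : MvPolynomial σ R) : MvPowerSeries σ R) ∈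
      maximalIdeal (MvPowerSeries σ R) ^ n := by
    rw [MvPolynomial.as_sum (truncTotal n g), ← MvPolynomial.coeToMvPowerSeries.ringHom_apply,
      map_sum]
    refine Ideal.sum_mem _ fun x _ => ?_
    rw [MvPolynomial.coeToMvPowerSeries.ringHom_apply, MvPolynomial.coe_monomial]
    have hmon : (monomial x (MvPolynomial.coeff x (truncTotal n g)) : MvPowerSeries σ R) =
        C (MvPolynomial.coeff x (truncTotal n g)) * monomial x (1 : R) := by
      rw [← monomial_zero_eq_C_apply, monomial_mul_monomial, zero_add, mul_one]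
    rw [hmon]
    by_cases hx : Finsupp.degree x < n
    · rw [coeff_truncTotal _ hx]
      have hc := C_mem_maximalIdeal_pow (σ := σ) _ _ (hg x)
      have hm := Ideal.pow_right_mono (varIdeal_le_maximalIdeal (σ := σ) (R := R)) _
        (monomial_one_mem_varIdeal_pow (R := R) x)
      have := Ideal.mul_mem_mul hc hm
      rw [← pow_add] at this
      exact Ideal.pow_le_pow_right (by omega) this
    · rw [coeff_truncTotal_eq_zero _ (not_lt.mp hx), map_zero, zero_mul]
      exact zero_mem _
  have := add_mem h1 h2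
  rwa [sub_add_cancel] at this

/-- Coefficientwise description of the powers of the maximal ideal of a power series ring. -/
theorem maximalIdeal_pow_eq_wtIdeal (n : ℕ) :
    maximalIdeal (MvPowerSeries σ R) ^ n = wtIdeal σ (maximalIdeal R) n :=
  le_antisymm (maximalIdeal_eq_wtIdeal (σ := σ) (R := R) ▸ pow_wtIdeal_one_le _ n)
    (wtIdeal_le_maximalIdeal_pow n)

theorem mem_maximalIdeal_pow_iff (n : ℕ) (g : MvPowerSeries σ R) :
    g ∈ maximalIdeal (MvPowerSeries σ R) ^ n ↔
      ∀ x : σ →₀ ℕ, coeff x g ∈ maximalIdeal R ^ (n - Finsupp.degree x) := by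
  rw [maximalIdeal_pow_eq_wtIdeal, mem_wtIdeal]

end Local

section Complete
variable {σ : Type*} [Finite σ] {R : Type*} [CommRing R] [IsLocalRing R]
open IsLocalRing

theorem isHausdorff_maximalIdeal [IsHausdorff (maximalIdeal R) R] :
    IsHausdorff (maximalIdeal (MvPowerSeries σ R)) (MvPowerSeries σ R) := by
  constructor
  intro g hg
  ext x
  rw [map_zero]
  apply IsHausdorff.haus (inferInstance : IsHausdorff (maximalIdeal R) R)
  intro n
  have h1 := hg (n + Finsupp.degree x)
  rw [SModEq.zero, smul_eq_mul, Ideal.mul_top, mem_maximalIdeal_pow_iff] at h1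
  have h2 := h1 x
  rw [Nat.add_sub_cancel] at h2
  rw [SModEq.zero, smul_eq_mul, Ideal.mul_top]
  exact h2

theorem isPrecomplete_maximalIdeal [IsPrecomplete (maximalIdeal R) R] :
    IsPrecomplete (maximalIdeal (MvPowerSeries σ R)) (MvPowerSeries σ R) := by
  constructor
  intro f hf
  have hf' : ∀ m n, m ≤ n → ∀ x, coeff x (f m) - coeff x (f n) ∈
      maximalIdeal R ^ (m - Finsupp.degree x) := by
    intro m n hmn x
    have := hf hmn
    rw [SModEq.sub_mem, smul_eq_mul, Ideal.mul_top, mem_maximalIdeal_pow_iff] at this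
    simpa using this x
  have key : ∀ x : σ →₀ ℕ, ∃ L : R, ∀ n, coeff x (f (n + Finsupp.degree x)) ≡ L
      [SMOD (maximalIdeal R ^ n • ⊤ : Submodule R R)] := by
    intro x
    apply IsPrecomplete.prec (inferInstance : IsPrecomplete (maximalIdeal R) R)
      (f := fun n => coeff x (f (n + Finsupp.degree x)))
    intro m n hmn
    rw [SModEq.sub_mem, smul_eq_mul, Ideal.mul_top]
    have := hf' (m + Finsupp.degree x) (n + Finsupp.degree x) (by omega) x
    rwa [Nat.add_sub_cancel] at this
  choose L hL using key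
  obtain ⟨Ls, hLs⟩ : ∃ Ls : MvPowerSeries σ R, ∀ x, coeff x Ls = L x := ⟨fun x => L x, fun x => rfl⟩
  refine ⟨Ls, fun n => ?_⟩
  rw [SModEq.sub_mem, smul_eq_mul, Ideal.mul_top, mem_maximalIdeal_pow_iff]
  intro x
  by_cases hx : Finsupp.degree x ≤ n
  · have := hL x (n - Finsupp.degree x)
    rw [SModEq.sub_mem, smul_eq_mul, Ideal.mul_top, Nat.sub_add_cancel hx] at this
    rw [map_sub, hLs]
    exact this
  · have : n - Finsupp.degree x = 0 := by omega
    rw [this, pow_zero, Ideal.one_eq_top]; trivial

/-- (a) A power series ring in finitely many variables over a complete local ring is complete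
with respect to its maximal ideal. -/
theorem isAdicComplete_maximalIdeal [IsAdicComplete (maximalIdeal R) R] :
    IsAdicComplete (maximalIdeal (MvPowerSeries σ R)) (MvPowerSeries σ R) :=
  { toIsHausdorff := isHausdorff_maximalIdeal
    toIsPrecomplete := isPrecomplete_maximalIdeal }

omit [Finite σ] [IsLocalRing R] in
theorem isLocalHom_algebraMap : IsLocalHom (algebraMap R (MvPowerSeries σ R)) := by
  constructor
  intro a ha
  have := (MvPowerSeries.isUnit_iff_constantCoeff).mp ha
  rwa [← c_eq_algebraMap, constantCoeff_C] at this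

omit [Finite σ] in
theorem residue_algebraMap_surjective :
    Function.Surjective (residue (MvPowerSeries σ R) ∘ algebraMap R (MvPowerSeries σ R)) := by
  intro y
  obtain ⟨g, rfl⟩ := residue_surjective y
  refine ⟨constantCoeff g, ?_⟩
  rw [Function.comp_apply, ← c_eq_algebraMap]
  rw [← sub_eq_zero, ← map_sub, residue_eq_zero_iff, mem_maximalIdeal_iff]
  simp

omit [Finite σ] in
theorem finite_quotient_maximalIdeal [Finite (ResidueField R)] :
    Finite (MvPowerSeries σ R ⧸ maximalIdeal (MvPowerSeries σ R)) := by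
  let φ : R →+* MvPowerSeries σ R ⧸ maximalIdeal (MvPowerSeries σ R) :=
    (Ideal.Quotient.mk _).comp C
  have hφ : Function.Surjective φ := by
    intro y
    obtain ⟨g, rfl⟩ := Ideal.Quotient.mk_surjective y
    refine ⟨constantCoeff g, ?_⟩
    simp only [φ, RingHom.comp_apply]
    rw [Ideal.Quotient.eq, mem_maximalIdeal_iff]
    simp
  have hker : ∀ a ∈ maximalIdeal R, φ a = 0 := by
    intro a ha
    simp only [φ, RingHom.comp_apply]
    rw [Ideal.Quotient.eq_zero_iff_mem, mem_maximalIdeal_iff, constantCoeff_C]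
    exact ha
  have hs : Function.Surjective (Ideal.Quotient.lift (maximalIdeal R) φ hker) :=
    Ideal.Quotient.lift_surjective_of_surjective _ _ hφ
  have : Finite (R ⧸ maximalIdeal R) := ‹Finite (ResidueField R)›
  exact Finite.of_surjective _ hs

/-- (b) The quotients of a power series ring in finitely many variables over a noetherian local
ring with finite residue field by the powers of its maximal ideal are finite. -/
theorem finite_quotient_maximalIdeal_pow [IsNoetherianRing R] [Finite (ResidueField R)] (n : ℕ) :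
    Finite (MvPowerSeries σ R ⧸ maximalIdeal (MvPowerSeries σ R) ^ n) := by
  have := finite_quotient_maximalIdeal (σ := σ) (R := R)
  exact Ideal.finite_quotient_pow (IsNoetherian.noetherian _) n

end Complete

section TestAlg
variable {σ : Type*} [Finite σ] {R : Type*} [CommRing R]
variable {A : Type*} [CommRing A] [IsLocalRing A] [Algebra R A]
open IsLocalRing

omit [Finite σ] [Algebra R A] in
theorem span_range_pow_eq_bot (a : σ → A) (ha : ∀ s, a s ∈ maximalIdeal A) (N : ℕ)
    (hN : maximalIdeal A ^ N = ⊥) : Ideal.span (Set.range a) ^ N = ⊥ := by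
  rw [eq_bot_iff, ← hN]
  apply Ideal.pow_right_mono
  rw [Ideal.span_le]
  rintro _ ⟨s, rfl⟩
  exact ha s

/-- (c) Evaluation homomorphism into a local algebra with nilpotent maximal ideal. -/
theorem exists_eval (hnil : ∃ N, maximalIdeal A ^ N = ⊥) (a : σ → A)
    (ha : ∀ s, a s ∈ maximalIdeal A) :
    ∃ φ : MvPowerSeries σ R →ₐ[R] A, ∀ s, φ (X s) = a s := by
  obtain ⟨N, hN⟩ := hnil
  exact ⟨evalNilp a N (span_range_pow_eq_bot a ha N hN), fun s => evalNilp_X _ _ _ s⟩

omit [Finite σ] in
/-- An algebra homomorphism from a power series ring to a local algebra whose residue field is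
generated by the base ring sends the variables into the maximal ideal. -/
theorem algHom_X_mem_maximalIdeal
    (hsurj : Function.Surjective (residue A ∘ algebraMap R A))
    (φ : MvPowerSeries σ R →ₐ[R] A) (s : σ) : φ (X s) ∈ maximalIdeal A := by
  by_contra h
  have hu : IsUnit (φ (X s)) := by
    by_contra h'
    exact h ((mem_maximalIdeal _).mpr h')
  obtain ⟨u, hu'⟩ := hu
  obtain ⟨c, hc⟩ := hsurj (residue A (↑u⁻¹ : A))
  have hg : IsUnit (1 - C c * X s : MvPowerSeries σ R) := by
    rw [MvPowerSeries.isUnit_iff_constantCoeff]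
    simp
  have hφg : IsUnit (φ (1 - C c * X s)) := hg.map φ
  have h0 : residue A (φ (1 - C c * X s)) = 0 := by
    rw [map_sub, map_one, map_mul, c_eq_algebraMap, AlgHom.commutes, map_sub, map_one, map_mul]
    rw [Function.comp_apply] at hc
    rw [hc, ← map_mul, ← hu', Units.inv_mul, map_one, sub_self]
  rw [residue_eq_zero_iff] at h0
  exact (mem_maximalIdeal _).mp h0 hφg

theorem eval_unique (hnil : ∃ N, maximalIdeal A ^ N = ⊥)
    (φ ψ : MvPowerSeries σ R →ₐ[R] A) (hφ : ∀ s, φ (X s) ∈ maximalIdeal A)
    (h : ∀ s, φ (X s) = ψ (X s)) : φ = ψ := by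
  obtain ⟨N, hN⟩ := hnil
  have : IsHausdorff (maximalIdeal A) A := by
    constructor
    intro x hx
    have := hx N
    rwa [SModEq.zero, smul_eq_mul, Ideal.mul_top, hN, Ideal.mem_bot] at this
  exact algHom_ext_of_isHausdorff φ ψ (maximalIdeal A) hφ h

theorem eval_unique_of_residue_surjective (hnil : ∃ N, maximalIdeal A ^ N = ⊥)
    (hsurj : Function.Surjective (residue A ∘ algebraMap R A))
    (φ ψ : MvPowerSeries σ R →ₐ[R] A) (h : ∀ s, φ (X s) = ψ (X s)) : φ = ψ :=
  eval_unique hnil φ ψ (algHom_X_mem_maximalIdeal hsurj φ) h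

end TestAlg


end Fermat.Agent.Lib.PowerSeriesLocal
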