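import Mathlib

/-!
# A finitely generated module of maximal depth over a regular local ring is free

`R` is a noetherian local ring whose maximal ideal is generated by an `R`-regular sequence `xs`.
If `N` is a finitely generated `R`-module with a weakly `N`-regular sequence `ys` inside the
maximal ideal, of the same length as `xs`, such that `N ⧸ (ys) N` has finite length,
then `N` is free.
-/

namespace Fermat.Agent.Lib.RegularFree

open CategoryTheory Abelian IsLocalRing Module RingTheory.Sequence

universe u

variable {R : Type u} [CommRing R] [IsLocalRing R]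

/-- A finite length module has projective dimension bounded by that of the residue field. -/
theorem hasProjectiveDimensionLT_of_isFiniteLength (n : ℕ)
    (hk : HasProjectiveDimensionLT (ModuleCat.of R (R ⧸ maximalIdeal R)) n)
    (Q : Type u) [AddCommGroup Q] [Module R Q] (hQ : IsFiniteLength R Q) :
    HasProjectiveDimensionLT (ModuleCat.of R Q) n := by
  induction hQ with
  | @of_subsingleton M _ _ _ =>
    have hz : Limits.IsZero (ModuleCat.of R M) := ModuleCat.isZero_of_subsingleton _
    have := hz.hasProjectiveDimensionLT_zero
    exact hasProjectiveDimensionLT_of_ge _ 0 n (Nat.zero_le _)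
  | @of_simple_quotient M _ _ S hS _ ih =>
    obtain ⟨I, hI, ⟨e⟩⟩ := isSimpleModule_iff_quot_maximal.mp hS
    have hIm : I = maximalIdeal R := IsLocalRing.eq_maximalIdeal hI
    subst hIm
    let T := (S.mkQ).shortComplexKer
    have hT : T.ShortExact := LinearMap.shortExact_shortComplexKer (Submodule.mkQ_surjective S)
    have h1 : HasProjectiveDimensionLT T.X₁ n := by
      have e1 : S ≃ₗ[R] LinearMap.ker S.mkQ := LinearEquiv.ofEq _ _ (Submodule.ker_mkQ S).symm
      exact hasProjectiveDimensionLT_of_iso e1.toModuleIso n
    have h3 : HasProjectiveDimensionLT T.X₃ n :=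
      hasProjectiveDimensionLT_of_iso e.symm.toModuleIso n
    exact hT.hasProjectiveDimensionLT_X₂ n h1 h3

/-- **Maximal depth implies free** over a local ring whose maximal ideal is generated by a
regular sequence. -/
theorem free_of_isWeaklyRegular_of_isFiniteLength [IsNoetherianRing R]
    (xs : List R) (hxs : IsRegular R xs) (hxm : Ideal.ofList xs = maximalIdeal R)
    (N : Type u) [AddCommGroup N] [Module R N] [Module.Finite R N]
    (ys : List R) (hys : IsWeaklyRegular N ys) (hym : ∀ y ∈ ys, y ∈ maximalIdeal R)
    (hlen : ys.length = xs.length)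
    (hQ : IsFiniteLength R (N ⧸ Ideal.ofList ys • (⊤ : Submodule R N))) :
    Module.Free R N := by
  rcases subsingleton_or_nontrivial N with hN | hN
  · exact Module.Free.of_subsingleton R N
  -- projective dimension of the residue field
  have hk : projectiveDimension (ModuleCat.of R (Shrink.{u} (R ⧸ Ideal.ofList xs))) = xs.length :=
    ModuleCat.projectiveDimension_quotient_eq_length xs hxs
  have hk' : HasProjectiveDimensionLT (ModuleCat.of R (R ⧸ maximalIdeal R)) (xs.length + 1) := by
    have h1 : HasProjectiveDimensionLE (ModuleCat.of R (Shrink.{u} (R ⧸ Ideal.ofList xs)))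
        xs.length := by
      rw [← projectiveDimension_le_iff, hk]
    have e : Shrink.{u} (R ⧸ Ideal.ofList xs) ≃ₗ[R] (R ⧸ maximalIdeal R) :=
      (Shrink.linearEquiv R _).trans (Submodule.quotEquivOfEq _ _ hxm)
    exact hasProjectiveDimensionLT_of_iso e.toModuleIso _
  have hQ' := hasProjectiveDimensionLT_of_isFiniteLength (xs.length + 1) hk' _ hQ
  have hpd := ModuleCat.projectiveDimension_quotient_eq_add_length_of_isWeaklyRegular
    (ModuleCat.of R N) ys hys hym
  have hle : projectiveDimension (ModuleCat.of R N) + (ys.length : WithBot ℕ∞) ≤
      (0 : WithBot ℕ∞) + (ys.length : WithBot ℕ∞) := by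
    rw [← hpd, zero_add, hlen]
    exact (projectiveDimension_le_iff _ _).mpr hQ'
  have hle0 : projectiveDimension (ModuleCat.of R N) ≤ ((0 : ℕ) : WithBot ℕ∞) := by
    have := (ENat.WithBot.add_le_add_natCast_right_iff).mp hle
    simpa using this
  have hproj : Projective (ModuleCat.of R N) :=
    (projective_iff_hasProjectiveDimensionLE_zero _).mpr ((projectiveDimension_le_iff _ _).mp hle0)
  have : Module.Projective R N := (IsProjective.iff_projective N).mpr hproj
  exact Module.free_of_flat_of_isLocalRing

end Fermat.Agent.Lib.RegularFree
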