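import Mathlib.RingTheory.Depth.Rees
import Mathlib.RingTheory.Regular.ProjectiveDimension
import Mathlib.RingTheory.Regular.Free

set_option autoImplicit false

universe u

open CategoryTheory Abelian IsLocalRing Module RingTheory.Sequence Pointwise

namespace Fermat.Agent.Lib.RegularFreeExt

variable {R : Type u} [CommRing R]

/-- Nakayama: over a local ring, `𝔪 M < M` for a nontrivial finite module. -/
lemma maximalIdeal_smul_top_lt [IsLocalRing R]
    (M : Type u) [AddCommGroup M] [Module R M] [Module.Finite R M] [Nontrivial M] :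
    maximalIdeal R • (⊤ : Submodule R M) < ⊤ :=
  lt_top_iff_ne_top.mpr <| Ne.symm <|
    Submodule.top_ne_ideal_smul_of_le_jacobson_annihilator (maximalIdeal_le_jacobson _)

/-- The residue field as a module has support in `V(𝔪)`. -/
lemma support_residue [IsLocalRing R] :
    Module.support R (R ⧸ maximalIdeal R) = PrimeSpectrum.zeroLocus (maximalIdeal R : Set R) := by
  rw [Module.support_eq_zeroLocus, Ideal.annihilator_quotient]

/-- Depth drops by exactly one modulo a regular element (local Noetherian case): if `M` has a
regular sequence of length `n + 1` in the maximal ideal and `x` in the maximal ideal is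
`M`-regular, then `M / x M` has a regular sequence of length `n` in the maximal ideal. -/
lemma exists_isRegular_quotSMulTop [IsLocalRing R] [IsNoetherianRing R]
    (M : Type u) [AddCommGroup M] [Module R M] [Module.Finite R M]
    (x : R) (hx : x ∈ maximalIdeal R) (hreg : IsSMulRegular M x)
    (rs : List R) (hrs : IsRegular M rs) (hmem : ∀ r ∈ rs, r ∈ maximalIdeal R)
    (n : ℕ) (hlen : rs.length = n + 1) :
    ∃ rs' : List R, rs'.length = n ∧ (∀ r ∈ rs', r ∈ maximalIdeal R) ∧
      IsRegular (QuotSMulTop x M) rs' := by
  have hnt : Nontrivial M := hrs.nontrivial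
  have hnt' : Nontrivial (QuotSMulTop x M) := nontrivial_quotSMulTop_of_mem_maximalIdeal M hx
  let k : ModuleCat.{u} R := ModuleCat.of R (R ⧸ maximalIdeal R)
  let MM : ModuleCat.{u} R := ModuleCat.of R M
  have hM : Module.Finite R MM := inferInstanceAs (Module.Finite R M)
  have hk : Module.Finite R k := inferInstanceAs (Module.Finite R (R ⧸ maximalIdeal R))
  have h_ext : ∀ i < n + 1, Subsingleton (Ext k MM i) := by
    intro i hi
    exact ModuleCat.subsingleton_ext_of_exists_isRegular (maximalIdeal R) k
      (support_residue (R := R)).subset MM (maximalIdeal_smul_top_lt M) rs hmem hrs i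
      (hlen ▸ hi)
  have h_ext' : ∀ i < n, Subsingleton (Ext k (ModuleCat.of R (QuotSMulTop x M)) i) := by
    intro i hi
    have zero1 := AddCommGrpCat.isZero_of_iff_subsingleton.mpr (h_ext i (by omega))
    have zero2 := AddCommGrpCat.isZero_of_iff_subsingleton.mpr (h_ext (i + 1) (by omega))
    have hS : (ModuleCat.smulShortComplex MM x).ShortExact :=
      IsSMulRegular.smulShortComplex_shortExact (M := MM) hreg
    exact AddCommGrpCat.subsingleton_of_isZero <| ShortComplex.Exact.isZero_of_both_zeros
      ((Ext.covariant_sequence_exact₃' k hS) i (i + 1) rfl)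
      (zero1.eq_zero_of_src _) (zero2.eq_zero_of_tgt _)
  exact ModuleCat.exists_isRegular_of_exists_subsingleton_ext (maximalIdeal R) n
    (ModuleCat.of R (QuotSMulTop x M)) (maximalIdeal_smul_top_lt (QuotSMulTop x M)) k
    (support_residue (R := R)) h_ext'

set_option backward.isDefEq.respectTransparency false in
/-- Nakayama step on `Ext`: if `a ∈ 𝔪` is `Q`-regular and `Ext^{i+1}(Q/aQ, M) = 0`, then
`Ext^i(Q, M) = 0` (for finite modules over a Noetherian local ring). -/
lemma subsingleton_ext_of_quotSMulTop [IsLocalRing R] [IsNoetherianRing R]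
    (Q M : ModuleCat.{u} R) [Module.Finite R Q] [Module.Finite R M]
    (a : R) (ha : a ∈ maximalIdeal R) (hreg : IsSMulRegular Q a) (i : ℕ)
    (h : Subsingleton (Ext (ModuleCat.of R (QuotSMulTop a Q)) M (i + 1))) :
    Subsingleton (Ext Q M i) := by
  let S := Q.smulShortComplex a
  have hS : S.ShortExact := hreg.smulShortComplex_shortExact
  have exac := Ext.contravariant_sequence_exact₁' hS M i (i + 1) (add_comm 1 i)
  have epi := exac.epi_f ((@AddCommGrpCat.isZero_of_subsingleton _ h).eq_zero_of_tgt _)
  have : S.f = a • 𝟙 Q := rfl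
  simp only [S, this, AddCommGrpCat.epi_iff_surjective, AddCommGrpCat.hom_ofHom] at epi
  by_contra! ntr
  have : a ∈ (Module.annihilator R (Ext Q M i)).jacobson :=
    (IsLocalRing.maximalIdeal_le_jacobson _) ha
  absurd Submodule.top_ne_pointwise_smul_of_mem_jacobson_annihilator this
  rw [eq_comm, eq_top_iff]
  intro y hy
  rcases epi y with ⟨z, hz⟩
  simp only [ModuleCat.smulShortComplex, Ext.mk₀_smul,
    Ext.bilinearComp_apply_apply, Ext.smul_comp, Ext.mk₀_id_comp] at hz
  simpa [← hz] using Submodule.smul_mem_pointwise_smul _ _ ⊤ trivial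

/-- Induction along a weakly regular sequence `rs` on `Q`: vanishing of `Ext^i(Q/(rs)Q, M)` for
`i < m + length rs` gives vanishing of `Ext^i(Q, M)` for `i < m`. -/
lemma subsingleton_ext_of_quot_ofList [IsLocalRing R] [IsNoetherianRing R]
    (M : ModuleCat.{u} R) [Module.Finite R M] (rs : List R) :
    ∀ (Q : Type u) [AddCommGroup Q] [Module R Q] [Module.Finite R Q],
      IsWeaklyRegular Q rs → (∀ r ∈ rs, r ∈ maximalIdeal R) → ∀ m : ℕ,
      (∀ (L : Type u) [AddCommGroup L] [Module R L] [Module.Finite R L],
        Nonempty (L ≃ₗ[R] Q ⧸ (Ideal.ofList rs • (⊤ : Submodule R Q))) →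
        ∀ i < m + rs.length, Subsingleton (Ext (ModuleCat.of R L) M i)) →
      ∀ i < m, Subsingleton (Ext (ModuleCat.of R Q) M i) := by
  induction rs with
  | nil =>
    intro Q _ _ _ _ _ m h i hi
    exact h Q ⟨(Submodule.quotEquivOfEqBot _ (by simp)).symm⟩ i (by simpa using hi)
  | cons a rs ih =>
    intro Q _ _ _ hreg hmem m h i hi
    rw [isWeaklyRegular_cons_iff] at hreg
    have key := ih (QuotSMulTop a Q) hreg.2
      (fun r hr => hmem r (List.mem_cons_of_mem _ hr)) (m + 1)
      (fun L _ _ _ ⟨e⟩ j hj => h L
        ⟨e.trans (Submodule.quotOfListConsSMulTopEquivQuotSMulTopInner Q a rs).symm⟩ j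
        (by simp only [List.length_cons]; omega))
    exact subsingleton_ext_of_quotSMulTop (ModuleCat.of R Q) M a
      (hmem a List.mem_cons_self) hreg.1 i (key (i + 1) (by omega))

/-- If the maximal ideal of a Noetherian local ring is generated by a regular sequence
`x :: xs` and the finite module `M` has a regular sequence of the same length in the maximal
ideal, then `x` is `M`-regular. -/
lemma isSMulRegular_of_isRegular [IsLocalRing R] [IsNoetherianRing R]
    (x : R) (xs : List R) (hxs : IsRegular R (x :: xs))
    (hgen : Ideal.ofList (x :: xs) = maximalIdeal R)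
    (M : Type u) [AddCommGroup M] [Module R M] [Module.Finite R M]
    (ys : List R) (hys : IsRegular M ys) (hmem : ∀ y ∈ ys, y ∈ maximalIdeal R)
    (hlen : ys.length = xs.length + 1) : IsSMulRegular M x := by
  have hnt : Nontrivial M := hys.nontrivial
  rw [isRegular_cons_iff] at hxs
  have hxsmem : ∀ r ∈ xs, r ∈ maximalIdeal R := by
    intro r hr
    rw [← hgen]
    exact Ideal.subset_span (List.mem_cons_of_mem _ hr)
  have hfinM : Module.Finite R (ModuleCat.of R M) := inferInstanceAs (Module.Finite R M)
  have h0 := subsingleton_ext_of_quot_ofList (ModuleCat.of R M) xs (QuotSMulTop x R)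
    hxs.2.toIsWeaklyRegular hxsmem 1 (by
      intro L _ _ _ ⟨e⟩ i hi
      have hfinL : Module.Finite R (ModuleCat.of R L) := inferInstanceAs (Module.Finite R L)
      let e' : L ≃ₗ[R] R ⧸ (Ideal.ofList (x :: xs) • (⊤ : Submodule R R)) :=
        e.trans (Submodule.quotOfListConsSMulTopEquivQuotSMulTopInner R x xs).symm
      have hann : maximalIdeal R ≤ Module.annihilator R L := by
        intro r hr
        rw [Module.mem_annihilator]
        intro l
        apply e'.injective
        rw [map_smul, map_zero]
        obtain ⟨y, hy⟩ := Submodule.Quotient.mk_surjective _ (e' l)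
        rw [← hy, ← Submodule.Quotient.mk_smul, Submodule.Quotient.mk_eq_zero]
        exact Submodule.smul_mem_smul (hgen ▸ hr) Submodule.mem_top
      have hsupp : Module.support R (ModuleCat.of R L) ⊆
          PrimeSpectrum.zeroLocus (maximalIdeal R : Set R) := by
        change Module.support R L ⊆ _
        rw [Module.support_eq_zeroLocus]
        exact PrimeSpectrum.zeroLocus_anti_mono hann
      exact ModuleCat.subsingleton_ext_of_exists_isRegular (maximalIdeal R) (ModuleCat.of R L)
        hsupp (ModuleCat.of R M) (maximalIdeal_smul_top_lt M) ys hmem hys i (by omega)) 0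
      Nat.zero_lt_one
  have h1 : Subsingleton (ModuleCat.of R (QuotSMulTop x R) ⟶ ModuleCat.of R M) :=
    Ext.addEquiv₀.subsingleton_congr.mp h0
  have h2 : Subsingleton (QuotSMulTop x R →ₗ[R] M) :=
    (ModuleCat.homAddEquiv (M := ModuleCat.of R (QuotSMulTop x R))
      (N := ModuleCat.of R M)).symm.subsingleton
  rw [isSMulRegular_iff_right_eq_zero_of_smul]
  intro u hu
  let f : QuotSMulTop x R →ₗ[R] M :=
    Submodule.liftQ _ (LinearMap.toSpanSingleton R M u) (by
      intro r hr
      obtain ⟨c, -, rfl⟩ := (Submodule.mem_smul_pointwise_iff_exists _ _ _).mp hr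
      rw [LinearMap.mem_ker, LinearMap.toSpanSingleton_apply, smul_eq_mul, mul_comm, mul_smul,
        hu, smul_zero])
  have hf : f (Submodule.Quotient.mk 1) = u := by
    change (LinearMap.toSpanSingleton R M u) 1 = u
    rw [LinearMap.toSpanSingleton_apply, one_smul]
  rw [← hf, Subsingleton.elim f 0]
  rfl

/-- The quotient of a local ring by an ideal contained in the maximal ideal is local, and its
maximal ideal is the image of the maximal ideal. -/
lemma map_mk_maximalIdeal [IsLocalRing R] (I : Ideal R) (hI : I ≤ maximalIdeal R)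
    [IsLocalRing (R ⧸ I)] :
    (maximalIdeal R).map (Ideal.Quotient.mk I) = maximalIdeal (R ⧸ I) := by
  rcases Ideal.map_eq_top_or_isMaximal_of_surjective (Ideal.Quotient.mk I)
    Ideal.Quotient.mk_surjective (maximalIdeal.isMaximal R) with h | h
  · exfalso
    have h1 : (1 : R ⧸ I) ∈ (maximalIdeal R).map (Ideal.Quotient.mk I) := h ▸ Submodule.mem_top
    obtain ⟨m, hm, hm1⟩ := (Ideal.mem_map_iff_of_surjective (Ideal.Quotient.mk I)
      Ideal.Quotient.mk_surjective).mp h1
    have h2 : m - 1 ∈ I := by
      rw [← Ideal.Quotient.eq_zero_iff_mem, map_sub, hm1, map_one, sub_self]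
    have h3 : (1 : R) ∈ maximalIdeal R := by
      have h4 := (maximalIdeal R).sub_mem hm (hI h2)
      rwa [sub_sub_cancel] at h4
    exact (maximalIdeal.isMaximal R).ne_top ((Ideal.eq_top_iff_one _).mpr h3)
  · exact IsLocalRing.eq_maximalIdeal h

theorem free_of_isRegular_aux (n : ℕ) :
    ∀ (R : Type u) [CommRing R] [IsLocalRing R] [IsNoetherianRing R] (xs : List R),
      xs.length = n → IsRegular R xs → Ideal.ofList xs = maximalIdeal R →
      ∀ (M : Type u) [AddCommGroup M] [Module R M] [Module.Finite R M] (ys : List R),
        IsRegular M ys → (∀ y ∈ ys, y ∈ maximalIdeal R) → ys.length = n → Module.Free R M := by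
  induction n with
  | zero =>
    intro R _ _ _ xs hlen _ hgen M _ _ _ ys _ _ _
    have hxs : xs = [] := List.length_eq_zero_iff.mp hlen
    subst hxs
    have hbot : maximalIdeal R = ⊥ := by rw [← hgen, Ideal.ofList_nil]
    have hfield : IsField R := IsLocalRing.isField_iff_maximalIdeal_eq.mpr hbot
    let _ := hfield.toField
    exact Module.Free.of_divisionRing R M
  | succ n ih =>
    intro R _ _ _ xs hlen hxs hgen M _ _ _ ys hys hmem hlen'
    match xs, hlen, hxs, hgen with
    | x :: xs', hlen, hxs, hgen =>
      have hlen1 : xs'.length = n := by simpa using hlen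
      have hxmem : x ∈ maximalIdeal R := by
        rw [← hgen]; exact Ideal.subset_span List.mem_cons_self
      have hnt : Nontrivial M := hys.nontrivial
      -- `x` is `M`-regular
      have hxM : IsSMulRegular M x :=
        isSMulRegular_of_isRegular x xs' hxs hgen M ys hys hmem (by omega)
      -- depth of `M/xM`
      obtain ⟨ys', hys'len, hys'mem, hys'⟩ :=
        exists_isRegular_quotSMulTop M x hxmem hxM ys hys hmem n hlen'
      -- the quotient ring
      have hspan : Ideal.span {x} ≤ maximalIdeal R := by
        rw [Ideal.span_singleton_le_iff_mem]; exact hxmem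
      have hntq : Nontrivial (R ⧸ Ideal.span {x}) :=
        Ideal.Quotient.nontrivial_iff.mpr (fun h => (maximalIdeal.isMaximal R).ne_top
          (top_le_iff.mp (h ▸ hspan)))
      have hloc : IsLocalRing (R ⧸ Ideal.span {x}) :=
        IsLocalRing.of_surjective' (Ideal.Quotient.mk (Ideal.span {x}))
          Ideal.Quotient.mk_surjective
      have hmax := map_mk_maximalIdeal (Ideal.span {x}) hspan
      have hxs2 := (isRegular_cons_iff' R x xs').mp hxs
      -- regular sequence generating the maximal ideal of the quotient ring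
      have hsub : x • (⊤ : Submodule R R) = Ideal.span {x} := by
        ext y
        rw [Submodule.mem_smul_pointwise_iff_exists, Ideal.mem_span_singleton']
        constructor
        · rintro ⟨c, -, rfl⟩; exact ⟨c, by rw [smul_eq_mul, mul_comm]⟩
        · rintro ⟨c, rfl⟩; exact ⟨c, Submodule.mem_top, by rw [smul_eq_mul, mul_comm]⟩
      let e₀ : QuotSMulTop x R ≃ₗ[R] R ⧸ Ideal.span {x} := Submodule.quotEquivOfEq _ _ hsub
      let e : QuotSMulTop x R ≃ₗ[R ⧸ Ideal.span {x}] R ⧸ Ideal.span {x} :=
        e₀.extendScalarsOfSurjective Ideal.Quotient.mk_surjective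
      have hregR' : IsRegular (R ⧸ Ideal.span {x})
          (xs'.map (Ideal.Quotient.mk (Ideal.span {x}))) :=
        (e.isRegular_congr _).mp hxs2.2
      have hgen' : Ideal.ofList (xs'.map (Ideal.Quotient.mk (Ideal.span {x}))) =
          maximalIdeal (R ⧸ Ideal.span {x}) := by
        rw [← Ideal.map_ofList, ← hmax, ← hgen, Ideal.ofList_cons, Ideal.map_sup,
          Ideal.map_quotient_self, bot_sup_eq]
      -- the module `M/xM` over the quotient ring
      have hfin' : Module.Finite (R ⧸ Ideal.span {x}) (QuotSMulTop x M) :=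
        Module.Finite.of_restrictScalars_finite R (R ⧸ Ideal.span {x}) (QuotSMulTop x M)
      have hnt' : Nontrivial (QuotSMulTop x M) :=
        nontrivial_quotSMulTop_of_mem_maximalIdeal M hxmem
      have hmem' : ∀ r ∈ ys'.map (Ideal.Quotient.mk (Ideal.span {x})),
          r ∈ maximalIdeal (R ⧸ Ideal.span {x}) := by
        intro r hr
        obtain ⟨y, hy, rfl⟩ := List.mem_map.mp hr
        rw [← hmax]
        exact Ideal.mem_map_of_mem _ (hys'mem y hy)
      have hwreg' : IsWeaklyRegular (QuotSMulTop x M)
          (ys'.map (Ideal.Quotient.mk (Ideal.span {x}))) :=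
        (isWeaklyRegular_map_algebraMap_iff (R ⧸ Ideal.span {x}) (QuotSMulTop x M) ys').mpr
          hys'.toIsWeaklyRegular
      have hreg' : IsRegular (QuotSMulTop x M)
          (ys'.map (Ideal.Quotient.mk (Ideal.span {x}))) :=
        IsRegular.of_isWeaklyRegular_of_mem_maximalIdeal (QuotSMulTop x M) hmem' hwreg'
      have hnoeth : IsNoetherianRing (R ⧸ Ideal.span {x}) :=
        isNoetherianRing_of_surjective R _ (Ideal.Quotient.mk (Ideal.span {x}))
          Ideal.Quotient.mk_surjective
      have hfree' : Module.Free (R ⧸ Ideal.span {x}) (QuotSMulTop x M) :=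
        ih (R ⧸ Ideal.span {x}) (xs'.map (Ideal.Quotient.mk (Ideal.span {x})))
          (by rw [List.length_map, hlen1]) hregR' hgen' (QuotSMulTop x M)
          (ys'.map (Ideal.Quotient.mk (Ideal.span {x}))) hreg' hmem'
          (by rw [List.length_map, hys'len])
      have hfp : Module.FinitePresentation R M := Module.finitePresentation_of_finite R M
      have hjac : x ∈ (⊥ : Ideal R).jacobson := by
        rw [IsLocalRing.jacobson_eq_maximalIdeal ⊥ bot_ne_top]; exact hxmem
      exact (Module.free_quotSMulTop_iff_free R M hjac hxM).mp hfree'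

/-- **Maximal Cohen–Macaulay modules over a regular local ring are free** (in the form:
if the maximal ideal of the Noetherian local ring `R` is generated by an `R`-regular sequence
`xs`, and the finite `R`-module `M` admits an `M`-regular sequence of the same length inside the
maximal ideal, then `M` is free). -/
theorem free_of_isRegular [IsLocalRing R] [IsNoetherianRing R] (xs : List R)
    (hxs : IsRegular R xs) (hgen : Ideal.ofList xs = maximalIdeal R)
    {M : Type u} [AddCommGroup M] [Module R M] [Module.Finite R M] (ys : List R)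
    (hys : IsRegular M ys) (hmem : ∀ y ∈ ys, y ∈ maximalIdeal R)
    (hlen : ys.length = xs.length) : Module.Free R M :=
  free_of_isRegular_aux xs.length R xs rfl hxs hgen M ys hys hmem hlen

end Fermat.Agent.Lib.RegularFreeExt
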